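import Fermat.Agent.WPt.Star

/-!
# The point of an elliptic curve over `ℚ`
-/

set_option autoImplicit false
set_option linter.unusedSectionVars false
set_option linter.style.haveILetI false

noncomputable section

namespace Fermat.Agent.WPt

open Matrix Module IsLocalRing Fermat.Agent.GalRep Fermat.Agent.PRem Fermat.Agent.EC
  Fermat.Agent.Sel Fermat.Agent.CL Fermat.Agent.TWG Fermat.Agent.ImW Fermat.Agent.TW
open WeierstrassCurve WeierstrassCurve.Affine WeierstrassCurve.Affine.Point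

local notation "Ω" => AlgebraicClosure ℚ

local notation "𝒢" => (AlgebraicClosure ℚ) ≃ₐ[ℚ] (AlgebraicClosure ℚ)

/-- the value of a quadratic character in a ring -/
def sg (O : Type) [CommRing O] (a : ℤˣ) : O := ((a : ℤ) : O)

theorem sg_one (O : Type) [CommRing O] : sg O 1 = 1 := by simp [sg]

theorem sg_mul (O : Type) [CommRing O] (a b : ℤˣ) : sg O (a * b) = sg O a * sg O b := by simp [sg]

theorem sg_sq (O : Type) [CommRing O] (a : ℤˣ) : sg O a * sg O a = 1 := by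
  rw [← sg_mul, Int.units_mul_self, sg_one]

/-- **The `p`-adic representation of the curve, in matrix form.** -/
structure WRep (W : WeierstrassCurve ℤ) (p : ℕ) [Fact p.Prime] {O : Type} [CommRing O]
    [IsLocalRing O] [IsNoetherianRing O] [IsAdicComplete (maximalIdeal O) O]
    (hpO : (p : O) ∈ maximalIdeal O) (ρ : 𝒢 →* M2 (ZMod p)) (κ : ZMod p →+* ResidueField O)
    (g₀ : 𝒢) (ρW : 𝒢 →* M2 O) : Prop where
  det : ∀ σ, (ρW σ).det = cycO hpO σ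
  cont : ∀ n : ℕ, ∃ L : IntermediateField ℚ Ω, FiniteDimensional ℚ L ∧
    ∀ σ : 𝒢, (∀ x ∈ L, σ x = x) → ∃ E : M2 O, ρW σ = 1 + (p ^ n : O) • E
  trace : ∀ l : ℕ, l.Prime → ¬ (l : ℤ) ∣ W.Δ → l ≠ p → ∀ A : ValuationSubring Ω,
    A.LiesOverPrime l → ∀ τ : 𝒢, A.IsFrobeniusAt τ l → (ρW τ).trace = ((W.apOfModel l : ℤ) : O)
  unr : ∀ l : ℕ, l.Prime → ¬ (l : ℤ) ∣ W.Δ → l ≠ p → ∀ A : ValuationSubring Ω,
    A.LiesOverPrime l → ∀ σ ∈ A.inertiaSubgroupIn ℚ, ρW σ = 1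
  res : ∀ σ, (ρW σ).map (residue O) = extW ρ κ σ
  conj : ρW complexConjugation = !![1, 0; 0, -1]
  g0 : ρW g₀ 0 1 = 1
  tors : ∃ e f : ℕ → PtW W, TSeq p e f ∧ ∃ Q Q' : M2 O, Q * Q' = 1 ∧ Q' * Q = 1 ∧
    ∀ σ : 𝒢, IsLim p e f (fun _ => DistribSMul.toAddMonoidHom (PtW W) σ) (Q * ρW σ * Q')
  mult : ∀ q : ℕ, q.Prime → (q : ℤ) ∣ W.Δ → ¬ (q : ℤ) ∣ W.c₄ → ∃ (χ : 𝒢 →* ℤˣ) (ε : ℤˣ),
    ∀ A : ValuationSubring Ω, A.LiesOverPrime q →
      (∀ σ ∈ A.inertiaSubgroupIn ℚ, χ σ = 1) ∧ (∀ Φ : 𝒢, A.IsFrobeniusAt Φ q → χ Φ = ε) ∧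
      ∀ σ ∈ A.decompositionSubgroup ℚ, ∀ τ ∈ A.decompositionSubgroup ℚ,
        (ρW σ - (sg O (χ σ) * cycO hpO σ) • (1 : M2 O)) * (ρW τ - sg O (χ τ) • (1 : M2 O)) = 0

/-- **Existence of the point.** -/
theorem exists_WRep {W : WeierstrassCurve ℤ} (hΔ : W.Δ ≠ 0) {p : ℕ} [hp : Fact p.Prime]
    (hp2 : p ≠ 2) {O : Type} [CommRing O] [IsDomain O] [IsLocalRing O] [IsNoetherianRing O]
    [IsAdicComplete (maximalIdeal O) O] (hpO : (p : O) ∈ maximalIdeal O)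
    {ρ : 𝒢 →* M2 (ZMod p)} (h : ResW W p ρ) (κ : ZMod p →+* ResidueField O) {g₀ : 𝒢}
    (hg₀ : ρ g₀ 0 1 = 1) : ∃ ρW : 𝒢 →* M2 O, WRep W p hpO ρ κ g₀ ρW := by
  classical
  have hodd : Odd p := hp.out.odd_of_ne_two hp2
  obtain ⟨b, hρ⟩ := h.basis
  obtain ⟨e, f, T, he, hf⟩ := exists_tseq_W hΔ hp2 b
  set R : 𝒢 →* M2 O := rhoO T hpO 𝒢 with hR
  have hdet : ∀ σ, (R σ).det = cycO hpO σ := rhoO_det T hpO hΔ hp2 he hf hρ κ h.conj
  have hres : ∀ σ i j, residue O (R σ i j) = κ (ρ σ i j) := rhoO_res T hpO he hf hρ κ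
  have h2u : IsUnit (2 : O) := by
    by_contra h2
    have h2' : residue O (2 : O) = 0 := (residue_eq_zero_iff (2 : O)).2 ((mem_maximalIdeal _).2 h2)
    rw [map_ofNat, ← map_ofNat κ, map_eq_zero_iff κ κ.injective] at h2'
    have : ((2 : ℕ) : ZMod p) = 0 := by exact_mod_cast h2'
    rw [ZMod.natCast_eq_zero_iff, Nat.prime_dvd_prime_iff_eq hp.out Nat.prime_two] at this
    exact hp2 this
  obtain ⟨Q, Q', hQQ, hQQ', hQr, hQr', hQc, hQg⟩ := exists_norm (C := R complexConjugation)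
    (G := R g₀) h2u (by rw [← map_mul, complexConjugation_mul_self, map_one]) (fun i j => by
      rw [hres, h.conj]
      fin_cases i <;> fin_cases j <;> simp) (by rw [hres, hg₀, map_one])
  let ρW : 𝒢 →* M2 O :=
    { toFun := fun σ => Q' * R σ * Q
      map_one' := by rw [map_one, mul_one, hQQ']
      map_mul' := fun σ τ => by
        rw [map_mul]
        calc Q' * (R σ * R τ) * Q = Q' * R σ * 1 * (R τ * Q) := by
              simp only [mul_one, mul_assoc]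
          _ = Q' * R σ * Q * (Q' * R τ * Q) := by
              rw [← hQQ]
              simp only [mul_assoc] }
  have hρW : ∀ σ, ρW σ = Q' * R σ * Q := fun _ => rfl
  have hconj1 : ∀ c : O, Q' * (c • (1 : M2 O)) * Q = c • 1 := fun c => by
    rw [Matrix.mul_smul, mul_one, Matrix.smul_mul, hQQ']
  refine ⟨ρW, ⟨?_, ?_, ?_, ?_, ?_, hQc, hQg, ?_, ?_⟩⟩
  · intro σ
    have h1 : Q'.det * Q.det = 1 := by rw [← Matrix.det_mul, hQQ', Matrix.det_one]
    rw [hρW, Matrix.det_mul, Matrix.det_mul, hdet, mul_right_comm, h1, one_mul]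
  · intro n
    obtain ⟨L, hL, hL'⟩ := rhoO_cont T hpO hΔ hp2 n
    refine ⟨L, hL, fun σ hσ => ?_⟩
    obtain ⟨E, hE⟩ := hL' σ hσ
    refine ⟨Q' * E * Q, ?_⟩
    rw [hρW, hR, hE, mul_add, add_mul, mul_one, hQQ', Matrix.mul_smul, Matrix.smul_mul]
  · intro l hl hgood hlp A hA τ hτ
    rw [hρW, Matrix.trace_mul_comm, ← mul_assoc, hQQ, one_mul]
    exact rhoO_trace T hpO hΔ hp2 he hf hρ κ h.conj hl hlp hgood hA hτ
  · intro l hl hgood hlp A hA σ hσ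
    have h1 : R σ = 1 := rhoO_eq_one T hpO fun n P hP =>
      fix_model hl hgood hA hσ (hodd.pow (n := n)) (not_dvd_pow hp.out hl hlp n) hP
    rw [hρW, h1, mul_one, hQQ']
  · intro σ
    have h1 : Q.map (residue O) = 1 := by
      ext i j
      exact hQr i j
    have h1' : Q'.map (residue O) = 1 := by
      ext i j
      exact hQr' i j
    have h2 : (R σ).map (residue O) = extW ρ κ σ := by
      ext i j
      rw [Matrix.map_apply, hres, extW_apply]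
    rw [hρW, Matrix.map_mul, Matrix.map_mul, h1, h1', h2, one_mul, mul_one]
  · refine ⟨e, f, T, Q, Q', hQQ, hQQ', fun σ => ?_⟩
    have h1 : Q * ρW σ * Q' = R σ := by
      rw [hρW]
      calc Q * (Q' * R σ * Q) * Q' = (Q * Q') * R σ * (Q * Q') := by simp only [mul_assoc]
        _ = R σ := by rw [hQQ, one_mul, mul_one]
    rw [h1]
    exact rhoO_spec T hpO 𝒢 σ
  · intro q hq hd hc4
    obtain ⟨χ, ε, hχ⟩ := mult_local hΔ hq hd hc4
    refine ⟨χ, ε, fun A hA => ⟨(hχ A hA).1, (hχ A hA).2.1, fun σ hσ τ hτ => ?_⟩⟩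
    obtain ⟨H, hH, hH'⟩ := (hχ A hA).2.2
    have h1 := rhoO_star T hpO (H := H) (hH' p hp.out hodd) (σ := σ) (τ := τ)
      (x := ((χ σ : ℤˣ) : ℤ)) (y := ((χ τ : ℤˣ) : ℤ)) (by
        rw [← Units.val_mul, Int.units_mul_self, Units.val_one])
      (fun n P hP => hH _ (hodd.pow (n := n)) P hP σ hσ)
      (fun n P hP => hH _ (hodd.pow (n := n)) P hP τ hτ) (hdet σ)
    change (R σ - (sg O (χ σ) * cycO hpO σ) • (1 : M2 O)) * (R τ - sg O (χ τ) • (1 : M2 O)) = 0 at h1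
    have e1 : ∀ (σ : 𝒢) (c : O), ρW σ - c • (1 : M2 O) = Q' * (R σ - c • (1 : M2 O)) * Q := fun σ c => by
      rw [mul_sub, sub_mul, hconj1, hρW]
    rw [e1, e1]
    calc Q' * (R σ - (sg O (χ σ) * cycO hpO σ) • (1 : M2 O)) * Q *
          (Q' * (R τ - sg O (χ τ) • (1 : M2 O)) * Q) =
          Q' * ((R σ - (sg O (χ σ) * cycO hpO σ) • (1 : M2 O)) * (Q * Q') *
            (R τ - sg O (χ τ) • (1 : M2 O))) * Q := by simp only [mul_assoc]
      _ = 0 := by rw [hQQ, mul_one, h1, mul_zero, zero_mul]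

theorem mem_dec_of_inertia {A : ValuationSubring Ω} {σ : 𝒢} (h : σ ∈ A.inertiaSubgroupIn ℚ) :
    σ ∈ A.decompositionSubgroup ℚ := by
  obtain ⟨g, -, rfl⟩ := Subgroup.mem_map.mp h
  exact g.2

/-- the trace on a decomposition group -/
theorem trace_of_star {R : Type} [CommRing R] [IsDomain R] {X : M2 R} {x c : R} (hx : x * x = 1)
    (hdet : X.det = c) (hc : c ≠ 0)
    (h : (X - (x * c) • (1 : M2 R)) * (X - x • (1 : M2 R)) = 0) : X.trace = x * (c + 1) := by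
  have hent := fun i j => congrFun (congrFun h i) j
  have e00 := hent 0 0
  have e01 := hent 0 1
  simp only [Matrix.mul_apply, Fin.sum_univ_two, Matrix.sub_apply, Matrix.smul_apply, smul_eq_mul,
    Matrix.one_apply_eq, mul_one, Matrix.one_apply_ne (show (0 : Fin 2) ≠ 1 by decide),
    Matrix.one_apply_ne (show (1 : Fin 2) ≠ 0 by decide), mul_zero, sub_zero,
    Matrix.zero_apply] at e00 e01
  rw [Matrix.det_fin_two] at hdet
  rw [Matrix.trace_fin_two]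
  by_contra hne
  have h0 : X 0 0 + X 1 1 - x * (c + 1) ≠ 0 := sub_ne_zero.2 hne
  have g00 : X 0 0 = 0 := (mul_eq_zero.1 (show (X 0 0 + X 1 1 - x * (c + 1)) * X 0 0 = 0 by
    linear_combination e00 + hdet - c * hx)).resolve_left h0
  have g01 : X 0 1 = 0 := (mul_eq_zero.1 (show (X 0 0 + X 1 1 - x * (c + 1)) * X 0 1 = 0 by
    linear_combination e01)).resolve_left h0
  rw [g00, g01] at hdet
  exact hc (by rw [← hdet]; ring)

/-- **Steinberg relations at the multiplicative primes different from `p`.** -/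
theorem WRep.steinberg {W : WeierstrassCurve ℤ} {p : ℕ} [hp : Fact p.Prime]
    {O : Type} [CommRing O] [IsDomain O] [CharZero O] [IsLocalRing O] [IsNoetherianRing O]
    [IsAdicComplete (maximalIdeal O) O] {hpO : (p : O) ∈ maximalIdeal O}
    {ρ : 𝒢 →* M2 (ZMod p)} {κ : ZMod p →+* ResidueField O} {g₀ : 𝒢} {ρW : 𝒢 →* M2 O}
    (h : WRep W p hpO ρ κ g₀ ρW) {q : ℕ} (hq : q.Prime) (hqp : q ≠ p) (hd : (q : ℤ) ∣ W.Δ)
    (hc4 : ¬ (q : ℤ) ∣ W.c₄) : ∃ ε : ℤˣ, ∀ A : ValuationSubring Ω, A.LiesOverPrime q →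
      ∀ Φ : 𝒢, A.IsFrobeniusAt Φ q → (ρW Φ).trace = sg O ε * ((q : O) + 1) ∧
        ∀ σ ∈ A.inertiaSubgroupIn ℚ, (ρW σ - 1) * (ρW Φ - sg O ε • (1 : M2 O)) = 0 ∧
          (ρW Φ - (sg O ε * (q : O)) • (1 : M2 O)) * (ρW σ - 1) = 0 := by
  obtain ⟨χ, ε, hχ⟩ := h.mult q hq hd hc4
  refine ⟨ε, fun A hA Φ hΦ => ?_⟩
  obtain ⟨h1, h2, h3⟩ := hχ A hA
  have hΦD := hΦ.mem_decompositionSubgroup
  have hcyc : cycO hpO Φ = (q : O) := cycO_frob hpO hq hqp hA hΦ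
  refine ⟨?_, fun σ hσ => ⟨?_, ?_⟩⟩
  · have h4 := h3 Φ hΦD Φ hΦD
    rw [h2 Φ hΦ, hcyc] at h4
    exact trace_of_star (sg_sq O ε) (by rw [h.det, hcyc]) (Nat.cast_ne_zero.2 hq.ne_zero) h4
  · have h4 := h3 σ (mem_dec_of_inertia hσ) Φ hΦD
    rwa [h2 Φ hΦ, h1 σ hσ, cycO_inertia hpO hq hqp hA hσ, sg_one, one_mul, one_smul] at h4
  · have h4 := h3 Φ hΦD σ (mem_dec_of_inertia hσ)
    rwa [h2 Φ hΦ, h1 σ hσ, hcyc, sg_one, one_smul] at h4

end Fermat.Agent.WPt
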