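import Fermat.Agent.WPt.Main
import Fermat.Agent.LC.Ord

/-!
# The residual representation at the primes of multiplicative reduction
-/

set_option autoImplicit false
set_option linter.unusedSectionVars false
set_option linter.style.haveILetI false

noncomputable section

namespace Fermat.Agent.WPt

open Matrix Module IsLocalRing Fermat.Agent.GalRep Fermat.Agent.PRem Fermat.Agent.EC
  Fermat.Agent.Sel Fermat.Agent.CL Fermat.Agent.TWG Fermat.Agent.ImW Fermat.Agent.TW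
open WeierstrassCurve WeierstrassCurve.Affine WeierstrassCurve.Affine.Point

local notation "Ω" => AlgebraicClosure ℚ

local notation "𝒢" => (AlgebraicClosure ℚ) ≃ₐ[ℚ] (AlgebraicClosure ℚ)

section col

variable {V : Type*} [AddCommGroup V] {e f : ℕ → V} {p : ℕ} (T : TSeq p e f)
include T

theorem col_mem {H : AddSubgroup V} {n : ℕ} {φ : V →+ V} {x : ℤ} {Y : M2 ℤ}
    (hY : TSeq.IsMat e f n φ Y) (hσ : ∀ P : V, p ^ n • P = 0 → φ P - x • P ∈ H) (i : Fin 2) :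
    (Y 0 i - x * (1 : M2 ℤ) 0 i) • e n + (Y 1 i - x * (1 : M2 ℤ) 1 i) • f n ∈ H := by
  fin_cases i
  · have h1 := hσ _ (T.tors_e n)
    rw [hY.1] at h1
    change (Y 0 0 - x * 1) • e n + (Y 1 0 - x * 0) • f n ∈ H
    rw [mul_one, mul_zero, sub_zero, sub_smul]
    have e1 : Y 0 0 • e n - x • e n + Y 1 0 • f n = Y 0 0 • e n + Y 1 0 • f n - x • e n := by abel
    rw [e1]
    exact h1
  · have h1 := hσ _ (T.tors_f n)
    rw [hY.2] at h1
    change (Y 0 1 - x * 0) • e n + (Y 1 1 - x * 1) • f n ∈ H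
    rw [mul_one, mul_zero, sub_zero, sub_smul]
    have e1 : Y 0 1 • e n + (Y 1 1 • f n - x • f n) = Y 0 1 • e n + Y 1 1 • f n - x • f n := by
      abel
    rw [e1]
    exact h1

end col

variable {W : WeierstrassCurve ℤ} {p : ℕ} [hp : Fact p.Prime]

theorem isMat_res {e f : ℕ → PtW W} {b : Basis (Fin 2) (ZMod p) (TE (EQ W) p)}
    (he : e 1 = (b 0 : TE (EQ W) p)) (hf : f 1 = (b 1 : TE (EQ W) p)) {ρ : 𝒢 →* M2 (ZMod p)}
    (hρ : ∀ σ, ρ σ = LinearMap.toMatrixAlgEquiv b (repE (EQ W) p σ)) {σ : 𝒢} {Y : M2 ℤ}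
    (hY : TSeq.IsMat e f 1 (DistribSMul.toAddMonoidHom (PtW W) σ) Y) (i j : Fin 2) :
    ρ σ i j = (Y i j : ZMod p) := by
  have hcast : ∀ (a : ℤ) (x : TE (EQ W) p), ((((a : ZMod p) • x : TE (EQ W) p)) : PtW W) =
      a • (x : PtW W) := by
    intro a x
    rw [Int.cast_smul_eq_zsmul (ZMod p) a x]
    rfl
  have h1 : ∀ j, repE (EQ W) p σ (b j) = (Y 0 j : ZMod p) • b 0 + (Y 1 j : ZMod p) • b 1 := by
    intro j
    apply Subtype.ext
    change σ • (b j : PtW W) = (((Y 0 j : ZMod p) • b 0 : TE (EQ W) p) : PtW W) +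
      (((Y 1 j : ZMod p) • b 1 : TE (EQ W) p) : PtW W)
    rw [hcast, hcast, ← he, ← hf]
    fin_cases j
    · change σ • ((b 0 : TE (EQ W) p) : PtW W) = _
      rw [← he]
      exact hY.1
    · change σ • ((b 1 : TE (EQ W) p) : PtW W) = _
      rw [← hf]
      exact hY.2
  rw [hρ, LinearMap.toMatrixAlgEquiv_apply, h1, map_add, map_smul, map_smul, b.repr_self,
    b.repr_self]
  fin_cases i <;> simp

/-- **The local relations for the residual representation.** -/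
theorem res_star (hΔ : W.Δ ≠ 0) (hp2 : p ≠ 2) {ρ : 𝒢 →* M2 (ZMod p)} (h : ResW W p ρ) {q : ℕ}
    (hq : q.Prime) (hd : (q : ℤ) ∣ W.Δ) (hc4 : ¬ (q : ℤ) ∣ W.c₄) :
    ∃ (χ : 𝒢 →* ℤˣ) (ε : ℤˣ), ∀ A : ValuationSubring Ω, A.LiesOverPrime q →
      (∀ σ ∈ A.inertiaSubgroupIn ℚ, χ σ = 1) ∧ (∀ Φ : 𝒢, A.IsFrobeniusAt Φ q → χ Φ = ε) ∧
      ∀ σ ∈ A.decompositionSubgroup ℚ, ∀ τ ∈ A.decompositionSubgroup ℚ,
        (ρ σ - (sg (ZMod p) (χ σ) * cyc p σ) • (1 : M2 (ZMod p))) *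
          (ρ τ - sg (ZMod p) (χ τ) • (1 : M2 (ZMod p))) = 0 := by
  have hodd : Odd p := hp.out.odd_of_ne_two hp2
  obtain ⟨b, hρ⟩ := h.basis
  obtain ⟨e, f, T, he, hf⟩ := exists_tseq_W hΔ hp2 b
  obtain ⟨χ, ε, hχ⟩ := mult_local hΔ hq hd hc4
  refine ⟨χ, ε, fun A hA => ⟨(hχ A hA).1, (hχ A hA).2.1, fun σ hσ τ hτ => ?_⟩⟩
  obtain ⟨H, hH, hH'⟩ := (hχ A hA).2.2
  rw [← h.det]
  refine star_of_det (sg_sq (ZMod p) (χ σ)) fun i j => ?_
  obtain ⟨Y, hY⟩ := T.exists_isMat 1 (DistribSMul.toAddMonoidHom (PtW W) σ)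
  obtain ⟨Z, hZ⟩ := T.exists_isMat 1 (DistribSMul.toAddMonoidHom (PtW W) τ)
  have h1 := det_dvd T hp.out (hH' p hp.out hodd)
    (col_mem T hY (x := ((χ σ : ℤˣ) : ℤ)) (fun P hP => hH _ (hodd.pow (n := 1)) P hP σ hσ) i)
    (col_mem T hZ (x := ((χ τ : ℤˣ) : ℤ)) (fun P hP => hH _ (hodd.pow (n := 1)) P hP τ hτ) j)
  rw [pow_one] at h1
  have h2 := (ZMod.intCast_zmod_eq_zero_iff_dvd _ p).2 h1
  push_cast at h2
  have hone : ∀ a b : Fin 2, (((1 : M2 ℤ) a b : ℤ) : ZMod p) = (1 : M2 (ZMod p)) a b := fun a b => by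
    rw [Matrix.one_apply, Matrix.one_apply]
    split_ifs <;> simp
  rw [hone, hone, hone, hone] at h2
  simp only [Matrix.sub_apply, Matrix.smul_apply, smul_eq_mul, isMat_res he hf hρ hY,
    isMat_res he hf hρ hZ]
  exact h2

/-- **Ordinarity of the residual representation at `p` (multiplicative reduction).** -/
theorem res_ro (hΔ : W.Δ ≠ 0) (hp2 : p ≠ 2) {ρ : 𝒢 →* M2 (ZMod p)} (h : ResW W p ρ)
    (hd : (p : ℤ) ∣ W.Δ) (hc4 : ¬ (p : ℤ) ∣ W.c₄) {k : Type} [Field k] [Algebra (ZMod p) k]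
    (κ : ZMod p →+* k) : LC.RO (extW ρ κ) p := by
  intro A hA
  obtain ⟨χ, ε, hχ⟩ := res_star hΔ hp2 h hp.out hd hc4
  obtain ⟨hin, -, hst⟩ := hχ A hA
  have hκ : algebraMap (ZMod p) k = κ := RingHom.ext_zmod _ _
  have hst' : ∀ σ ∈ A.decompositionSubgroup ℚ, ∀ τ ∈ A.decompositionSubgroup ℚ,
      (extW ρ κ σ - (sg k (χ σ) * κ (cyc p σ)) • (1 : M2 k)) *
          (extW ρ κ τ - sg k (χ τ) • (1 : M2 k)) = 0 := by
    intro σ hσ τ hτ
    have h1 := congrArg κ.mapMatrix (hst σ hσ τ hτ)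
    rw [map_mul, map_sub, map_sub, _root_.map_zero] at h1
    have e1 : ∀ c : ZMod p, κ.mapMatrix (c • (1 : M2 (ZMod p))) = κ c • (1 : M2 k) := fun c => by
      ext i j
      rw [RingHom.mapMatrix_apply, Matrix.map_apply, Matrix.smul_apply, Matrix.smul_apply,
        smul_eq_mul, smul_eq_mul, map_mul, Matrix.one_apply, Matrix.one_apply]
      split_ifs <;> simp
    have e2 : ∀ a : ℤˣ, κ (sg (ZMod p) a) = sg k a := fun a => by
      rw [sg, sg, map_intCast]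
    rw [e1, e1, map_mul, e2, e2] at h1
    exact h1
  have hdet : ∀ σ, (extW ρ κ σ).det = κ (cyc p σ) := fun σ => by
    rw [← h.det σ]
    exact (RingHom.map_det κ (ρ σ)).symm
  have hu : ∀ σ, κ (cyc p σ) ≠ 0 := fun σ h0 => by
    have h1 : κ (cyc p σ) * κ (cyc p σ⁻¹) = 1 := by
      rw [← map_mul, ← map_mul, mul_inv_cancel, map_one, map_one]
    rw [h0, zero_mul] at h1
    exact zero_ne_one h1
  -- a non-zero vector
  obtain ⟨τ₀, hτ₀, hne⟩ := LC.exists_cyc_ne_one hp2 hA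
  have hτ₀D := mem_dec_of_inertia hτ₀
  obtain ⟨j, hj⟩ : ∃ j, ¬ ((extW ρ κ τ₀ - sg k (χ τ₀) • (1 : M2 k)) 0 j = 0 ∧
      (extW ρ κ τ₀ - sg k (χ τ₀) • (1 : M2 k)) 1 j = 0) := by
    by_contra hcon
    push Not at hcon
    have h1 : extW ρ κ τ₀ = sg k (χ τ₀) • (1 : M2 k) := by
      rw [← sub_eq_zero]
      ext i j
      fin_cases i
      · exact (hcon j).1
      · exact (hcon j).2
    have h2 := hdet τ₀
    rw [h1, hin τ₀ hτ₀, sg_one, one_smul, Matrix.det_one] at h2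
    exact hne (κ.injective (by rw [← h2, map_one]))
  set a := (extW ρ κ τ₀ - sg k (χ τ₀) • (1 : M2 k)) 0 j with ha
  set c := (extW ρ κ τ₀ - sg k (χ τ₀) • (1 : M2 k)) 1 j with hc
  have heig : ∀ σ ∈ A.decompositionSubgroup ℚ,
      extW ρ κ σ 0 0 * a + extW ρ κ σ 0 1 * c = (sg k (χ σ) * κ (cyc p σ)) * a ∧
      extW ρ κ σ 1 0 * a + extW ρ κ σ 1 1 * c = (sg k (χ σ) * κ (cyc p σ)) * c := by
    intro σ hσ
    have h1 := hst' σ hσ τ₀ hτ₀D
    have e0 := congrFun (congrFun h1 0) j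
    have e1 := congrFun (congrFun h1 1) j
    rw [Matrix.mul_apply, Fin.sum_univ_two, Matrix.zero_apply, ← ha, ← hc] at e0 e1
    simp only [Matrix.sub_apply, Matrix.smul_apply, smul_eq_mul, Matrix.one_apply_eq,
      mul_one, Matrix.one_apply_ne (show (1 : Fin 2) ≠ 0 by decide),
      Matrix.one_apply_ne (show (0 : Fin 2) ≠ 1 by decide), mul_zero, sub_zero] at e0 e1
    exact ⟨by linear_combination e0, by linear_combination e1⟩
  -- a basis
  obtain ⟨b', d', hdetQ⟩ : ∃ b' d' : k, a * d' - b' * c = 1 := by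
    by_cases ha0 : a = 0
    · have hc0 : c ≠ 0 := fun hc0 => hj ⟨ha0, hc0⟩
      exact ⟨-c⁻¹, 0, by rw [mul_zero, zero_sub, neg_mul, neg_neg, inv_mul_cancel₀ hc0]⟩
    · exact ⟨0, a⁻¹, by rw [mul_inv_cancel₀ ha0, zero_mul, sub_zero]⟩
  have hQQ : (!![a, b'; c, d'] : M2 k) * !![d', -b'; -c, a] = 1 := by
    ext i j
    fin_cases i <;> fin_cases j <;> simp [Matrix.mul_apply, Fin.sum_univ_two]
    · linear_combination hdetQ
    · ring
    · ring
    · linear_combination hdetQ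
  have hQQ' : (!![d', -b'; -c, a] : M2 k) * !![a, b'; c, d'] = 1 := by rw [mul_eq_one_comm]; exact hQQ
  have hdQ : (!![d', -b'; -c, a] : M2 k).det * (!![a, b'; c, d'] : M2 k).det = 1 := by
    rw [← Matrix.det_mul, hQQ', Matrix.det_one]
  have h10 : ∀ σ ∈ A.decompositionSubgroup ℚ,
      (!![d', -b'; -c, a] * extW ρ κ σ * !![a, b'; c, d']) 1 0 = 0 := fun σ hσ => by
    obtain ⟨e0, e1⟩ := heig σ hσ
    simp only [Matrix.mul_apply, Fin.sum_univ_two, Matrix.of_apply, Matrix.cons_val',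
      Matrix.cons_val_zero, Matrix.cons_val_one, Matrix.cons_val_fin_one]
    linear_combination (-c) * e0 + a * e1
  have h00 : ∀ σ ∈ A.decompositionSubgroup ℚ,
      (!![d', -b'; -c, a] * extW ρ κ σ * !![a, b'; c, d']) 0 0 = sg k (χ σ) * κ (cyc p σ) :=
    fun σ hσ => by
    obtain ⟨e0, e1⟩ := heig σ hσ
    simp only [Matrix.mul_apply, Fin.sum_univ_two, Matrix.of_apply, Matrix.cons_val',
      Matrix.cons_val_zero, Matrix.cons_val_one, Matrix.cons_val_fin_one]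
    linear_combination d' * e0 - b' * e1 + (sg k (χ σ) * κ (cyc p σ)) * hdetQ
  have h11 : ∀ σ ∈ A.decompositionSubgroup ℚ,
      (!![d', -b'; -c, a] * extW ρ κ σ * !![a, b'; c, d']) 1 1 = sg k (χ σ) := fun σ hσ => by
    have h1 : (!![d', -b'; -c, a] * extW ρ κ σ * !![a, b'; c, d']).det = κ (cyc p σ) := by
      rw [Matrix.det_mul, Matrix.det_mul, mul_right_comm, hdQ, one_mul, hdet]
    rw [Matrix.det_fin_two, h10 σ hσ, h00 σ hσ, mul_zero, sub_zero] at h1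
    have h2 := sg_sq k (χ σ)
    refine mul_left_cancel₀ (hu σ) ?_
    linear_combination sg k (χ σ) * h1 -
      κ (cyc p σ) * (!![d', -b'; -c, a] * extW ρ κ σ * !![a, b'; c, d']) 1 1 * h2
  refine ⟨!![a, b'; c, d'], !![d', -b'; -c, a], hQQ, h10, fun σ hσ => ?_, fun σ hσ => ?_⟩
  · rw [h11 σ (mem_dec_of_inertia hσ), hin σ hσ, sg_one]
  · rw [h11 σ hσ, h00 σ hσ, hκ, mul_comm]

end Fermat.Agent.WPt
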