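import Fermat.Agent.WPt.Lim
import Fermat.Agent.ImW.Curve

/-!
# The Tate module of an elliptic curve over `ℚ`: bases
-/

set_option autoImplicit false
set_option linter.unusedSectionVars false
set_option linter.style.haveILetI false

noncomputable section

namespace Fermat.Agent.WPt

open Matrix Module Fermat.Agent.GalRep Fermat.Agent.PRem Fermat.Agent.EC Fermat.Agent.Sel
  Fermat.Agent.CL Fermat.Agent.TWG Fermat.Agent.ImW
open WeierstrassCurve WeierstrassCurve.Affine WeierstrassCurve.Affine.Point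

local notation "Ω" => AlgebraicClosure ℚ

local notation "𝒢" => (AlgebraicClosure ℚ) ≃ₐ[ℚ] (AlgebraicClosure ℚ)

/-- the points of the curve -/
abbrev PtW (W : WeierstrassCurve ℤ) := ((EQ W)⁄Ω).Point

variable {W : WeierstrassCurve ℤ}

/-- torsion points are divisible -/
theorem exists_div (hΔ : W.Δ ≠ 0) {p : ℕ} (hp : p.Prime) (hp2 : p ≠ 2) (n : ℕ) (P : PtW W)
    (hP : p ^ n • P = 0) : ∃ Q : PtW W, p • Q = P := by
  have hodd : Odd p := hp.odd_of_ne_two hp2
  haveI := finite_TW hΔ (hodd.pow (n := n))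
  haveI := finite_TW hΔ (hodd.pow (n := n + 1))
  haveI := finite_TW hΔ hodd
  have hmem : ∀ x : TW W (p ^ (n + 1)), p • (x : PtW W) ∈ TW W (p ^ n) := fun x => by
    rw [Submodule.mem_torsionBy_iff, natCast_zsmul, ← mul_smul, ← pow_succ]
    exact nsmul_TW x
  let f : TW W (p ^ (n + 1)) →+ TW W (p ^ n) :=
    { toFun := fun x => ⟨p • (x : PtW W), hmem x⟩
      map_zero' := Subtype.ext (smul_zero p)
      map_add' := fun x y => Subtype.ext (smul_add p (x : PtW W) y) }
  have hsurj : Function.Surjective f := by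
    apply AddMonoidHom.surjective_of_card_ker_le_div
    rw [card_TW hΔ hodd.pow, card_TW hΔ hodd.pow, ← pow_mul, ← pow_mul,
      Nat.pow_div (by omega) hp.pos, show (n + 1) * 2 - n * 2 = 2 by omega]
    rw [← card_TW hΔ hodd]
    refine Nat.card_le_card_of_injective (fun x : f.ker => (⟨x.1.1, by
      rw [Submodule.mem_torsionBy_iff, natCast_zsmul]
      exact congrArg Subtype.val ((AddMonoidHom.mem_ker).1 x.2)⟩ : TW W p)) ?_
    intro x y hxy
    simp only [Subtype.mk.injEq] at hxy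
    exact Subtype.ext (Subtype.ext hxy)
  obtain ⟨x, hx⟩ := hsurj ⟨P, by rw [Submodule.mem_torsionBy_iff, natCast_zsmul]; exact hP⟩
  exact ⟨x.1, congrArg Subtype.val hx⟩

/-- compatible bases of the torsion points, with a given basis of the `p`-torsion -/
theorem exists_tseq_W (hΔ : W.Δ ≠ 0) {p : ℕ} [hp : Fact p.Prime] (hp2 : p ≠ 2)
    (b : Basis (Fin 2) (ZMod p) (TE (EQ W) p)) :
    ∃ e f : ℕ → PtW W, TSeq p e f ∧ e 1 = (b 0 : TE (EQ W) p) ∧ f 1 = (b 1 : TE (EQ W) p) := by
  have hpt : ∀ x : TE (EQ W) p, p • (x : PtW W) = 0 := fun x => nsmul_TW x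
  have hcast : ∀ (a : ℤ) (x : TE (EQ W) p), ((((a : ZMod p) • x : TE (EQ W) p)) : PtW W) =
      a • (x : PtW W) := by
    intro a x
    rw [Int.cast_smul_eq_zsmul (ZMod p) a x]
    rfl
  refine exists_tseq (fun n P hP => exists_div hΔ hp.out hp2 n P hP) (hpt _) (hpt _) ?_ ?_
  · intro P hP
    have hP' : P ∈ TW W p := by
      rw [Submodule.mem_torsionBy_iff, natCast_zsmul]; exact hP
    have h1 := b.sum_repr ⟨P, hP'⟩
    rw [Fin.sum_univ_two] at h1
    refine ⟨(b.repr ⟨P, hP'⟩ 0).val, (b.repr ⟨P, hP'⟩ 1).val, ?_⟩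
    have h2 := congrArg Subtype.val h1
    have hv : ∀ z : ZMod p, (((z.val : ℕ) : ℤ) : ZMod p) = z := fun z => by
      rw [Int.cast_natCast, ZMod.natCast_zmod_val]
    rw [← hcast, ← hcast, hv, hv]
    exact h2.symm
  · intro a c hac
    have h1 : (a : ZMod p) • b 0 + (c : ZMod p) • b 1 = 0 := by
      apply Subtype.ext
      change (((a : ZMod p) • b 0 : TE (EQ W) p) : PtW W) + (((c : ZMod p) • b 1 : TE (EQ W) p) : PtW W) = 0
      rw [hcast, hcast]
      exact hac
    have h2 := Fintype.linearIndependent_iff.1 b.linearIndependent ![(a : ZMod p), (c : ZMod p)]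
      (by rw [Fin.sum_univ_two]; exact h1)
    have h3 := h2 0
    have h4 := h2 1
    exact ⟨(ZMod.intCast_zmod_eq_zero_iff_dvd a p).1 h3, (ZMod.intCast_zmod_eq_zero_iff_dvd c p).1 h4⟩

end Fermat.Agent.WPt
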