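import Fermat.Agent.WPt.Base

/-!
# The representation on the Tate module: determinant, Frobenius, continuity
-/

set_option autoImplicit false
set_option linter.unusedSectionVars false
set_option linter.style.haveILetI false

noncomputable section

namespace Fermat.Agent.WPt

open Matrix Module IsLocalRing Fermat.Agent.GalRep Fermat.Agent.PRem Fermat.Agent.EC
  Fermat.Agent.Sel Fermat.Agent.CL Fermat.Agent.TWG Fermat.Agent.ImW Fermat.Agent.TW
open WeierstrassCurve WeierstrassCurve.Affine WeierstrassCurve.Affine.Point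

local notation "Ω" => AlgebraicClosure ℚ

local notation "𝒢" => (AlgebraicClosure ℚ) ≃ₐ[ℚ] (AlgebraicClosure ℚ)

variable {W : WeierstrassCurve ℤ} {p : ℕ} [hp : Fact p.Prime] {e f : ℕ → PtW W}
  (T : TSeq p e f) {O : Type} [CommRing O] [IsLocalRing O] [IsNoetherianRing O]
  [IsAdicComplete (maximalIdeal O) O] (hpO : (p : O) ∈ maximalIdeal O)

/-- continuity -/
theorem rhoO_cont (hΔ : W.Δ ≠ 0) (hp2 : p ≠ 2) (n : ℕ) : ∃ L : IntermediateField ℚ Ω,
    FiniteDimensional ℚ L ∧ ∀ σ : 𝒢, (∀ x ∈ L, σ x = x) →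
      ∃ E : M2 O, rhoO T hpO 𝒢 σ = 1 + (p ^ n : O) • E := by
  obtain ⟨L, hL, h⟩ := level_repW hΔ ((hp.out.odd_of_ne_two hp2).pow (n := n))
  refine ⟨L, hL, fun σ hσ => ?_⟩
  have h0 : ∀ P : PtW W, p ^ n • P = 0 → σ • P = P := fun P hP => by
    have := congrArg (fun φ => (φ ⟨P, by
      rw [Submodule.mem_torsionBy_iff, natCast_zsmul]; exact hP⟩ : TW W (p ^ n))) (h σ hσ)
    exact congrArg Subtype.val this
  obtain ⟨E, hE⟩ := (rhoO_spec T hpO 𝒢 σ).isMat T (n := n) (Y := 1) ⟨by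
    change σ • e n = _
    rw [h0 _ (T.tors_e n)]
    simp, by
    change σ • f n = _
    rw [h0 _ (T.tors_f n)]
    simp⟩
  exact ⟨E, by rw [hE, map_one]⟩

/-- elements acting trivially -/
theorem rhoO_eq_one {σ : 𝒢} (h : ∀ n, ∀ P : PtW W, p ^ n • P = 0 → σ • P = P) :
    rhoO T hpO 𝒢 σ = 1 :=
  (rhoO_spec T hpO 𝒢 σ).unique T hpO (isLim_one.congr T fun n P hP => (h n P hP).symm)

theorem isLim_int (a : ℤ) : IsLim p e f (fun _ => zsmulAddGroupHom a) ((a : O) • (1 : M2 O)) :=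
  isLim_zsmul fun n => ⟨0, by rw [mul_zero, add_zero]⟩

/-- quadratic relations -/
theorem rhoO_quad {σ : 𝒢} {a l : ℤ}
    (h : ∀ n, ∀ P : PtW W, p ^ n • P = 0 → σ • σ • P - a • σ • P + l • P = 0) :
    rhoO T hpO 𝒢 σ * rhoO T hpO 𝒢 σ - (a : O) • rhoO T hpO 𝒢 σ + (l : O) • (1 : M2 O) = 0 := by
  have hs := rhoO_spec T hpO 𝒢 σ
  have h1 := ((hs.mul hs).add ((isLim_int (O := O) (p := p) (e := e) (f := f) (-a)).mul hs)).add
    (isLim_int (O := O) (p := p) (e := e) (f := f) l)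
  have h2 := h1.eq_zero T hpO fun n P hP => by
    change σ • σ • P + (-a) • σ • P + l • P = 0
    rw [← h n P hP, neg_smul]
    abel
  rw [← h2, smul_mul_assoc, one_mul]
  push_cast
  rw [neg_smul]
  abel

/-- `g + cyc(g) g⁻¹` is a scalar -/
theorem rhoO_scalar (hΔ : W.Δ ≠ 0) (hp2 : p ≠ 2) (g : 𝒢) : ∃ y : O,
    rhoO T hpO 𝒢 g + cycO hpO g • rhoO T hpO 𝒢 g⁻¹ = y • (1 : M2 O) := by
  set S : Set ℕ := {l | l = p ∨ (l.Prime ∧ (l : ℤ) ∣ W.Δ)} with hS
  have hSf : S.Finite := by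
    refine ((Set.finite_singleton p).union (Set.finite_Iic W.Δ.natAbs)).subset ?_
    rintro l (hl | ⟨_, hl⟩)
    · exact Or.inl hl
    · exact Or.inr (Nat.le_of_dvd (Int.natAbs_pos.2 hΔ) (Int.natCast_dvd.1 hl))
  have hr : ∀ n, ∃ r : ℤ, ∀ x : TW W (p ^ n),
      repW W (p ^ n) g x + (cyc (p ^ n) g).val • repW W (p ^ n) g⁻¹ x = r • x := fun n =>
    (isHG_W hΔ hp2 (S := S) (Or.inl rfl) (fun l hl hd => Or.inr ⟨hl, hd⟩) n).1.exists_trace hSf
      (Or.inl rfl) n (fun x => Subtype.ext (nsmul_TW x)) g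
  choose r hr using hr
  have hc : IsLim p e f (fun n => zsmulAddGroupHom (((cyc (p ^ n) g).val : ℕ) : ℤ))
      (cycO hpO g • (1 : M2 O)) := isLim_zsmul fun n => by
    obtain ⟨z, hz⟩ := cycO_spec (O := O) hpO g n
    exact ⟨z, by rw [hz, Int.cast_natCast]⟩
  have h1 := (rhoO_spec T hpO 𝒢 g).add (hc.mul (rhoO_spec T hpO 𝒢 g⁻¹))
  rw [smul_mul_assoc, one_mul] at h1
  set Z : M2 O := rhoO T hpO 𝒢 g + cycO hpO g • rhoO T hpO 𝒢 g⁻¹ with hZ
  have h2 : ∀ n, ∃ E : M2 O, Z = (r n : O) • (1 : M2 O) + (p ^ n : O) • E := by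
    intro n
    have h3 : TSeq.IsMat e f n (DistribSMul.toAddMonoidHom (PtW W) g + (zsmulAddGroupHom
        (((cyc (p ^ n) g).val : ℕ) : ℤ)).comp (DistribSMul.toAddMonoidHom (PtW W) g⁻¹))
        (r n • (1 : M2 ℤ)) := by
      have key : ∀ P : PtW W, p ^ n • P = 0 → (DistribSMul.toAddMonoidHom (PtW W) g +
          (zsmulAddGroupHom (((cyc (p ^ n) g).val : ℕ) : ℤ)).comp
          (DistribSMul.toAddMonoidHom (PtW W) g⁻¹)) P = r n • P := by
        intro P hP
        have := congrArg Subtype.val (hr n ⟨P, by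
          rw [Submodule.mem_torsionBy_iff, natCast_zsmul]; exact hP⟩)
        change g • P + (((cyc (p ^ n) g).val : ℕ) : ℤ) • g⁻¹ • P = r n • P
        rw [natCast_zsmul]
        exact this
      constructor
      · rw [key _ (T.tors_e n)]; simp
      · rw [key _ (T.tors_f n)]; simp
    obtain ⟨E, hE⟩ := h1.isMat T h3
    exact ⟨E, by rw [hE, mI_smul, map_one]⟩
  refine ⟨Z 0 0, ?_⟩
  ext i j
  refine eq_of_forall_pow (X := O) hpO fun n => ?_
  obtain ⟨E, hE⟩ := h2 n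
  have hent : ∀ i j, Z i j = (r n : O) * (1 : M2 O) i j + (p ^ n : O) * E i j := fun i j => by
    rw [hE]; rfl
  fin_cases i <;> fin_cases j
  · exact ⟨0, by simp⟩
  · refine ⟨E 0 1, ?_⟩
    change Z 0 1 = Z 0 0 * 0 + _
    rw [hent 0 1]
    simp
  · refine ⟨E 1 0, ?_⟩
    change Z 1 0 = Z 0 0 * 0 + _
    rw [hent 1 0]
    simp
  · refine ⟨E 1 1 - E 0 0, ?_⟩
    change Z 1 1 = Z 0 0 * 1 + _
    rw [hent 1 1, hent 0 0, smul_eq_mul]
    simp
    ring

/-- the residual representation -/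
theorem rhoO_res {b : Basis (Fin 2) (ZMod p) (TE (EQ W) p)} (he : e 1 = (b 0 : TE (EQ W) p))
    (hf : f 1 = (b 1 : TE (EQ W) p)) {ρ : 𝒢 →* M2 (ZMod p)}
    (hρ : ∀ σ, ρ σ = LinearMap.toMatrixAlgEquiv b (repE (EQ W) p σ))
    (κ : ZMod p →+* ResidueField O) (σ : 𝒢) (i j : Fin 2) :
    residue O (rhoO T hpO 𝒢 σ i j) = κ (ρ σ i j) := by
  obtain ⟨Y, hY, E, hE⟩ := rhoO_spec T hpO 𝒢 σ 1
  have hcast : ∀ (a : ℤ) (x : TE (EQ W) p), ((((a : ZMod p) • x : TE (EQ W) p)) : PtW W) =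
      a • (x : PtW W) := by
    intro a x
    rw [Int.cast_smul_eq_zsmul (ZMod p) a x]
    rfl
  have h1 : ∀ j, repE (EQ W) p σ (b j) = (Y 0 j : ZMod p) • b 0 + (Y 1 j : ZMod p) • b 1 := by
    intro j
    apply Subtype.ext
    change σ • (b j : PtW W) = (((Y 0 j : ZMod p) • b 0 : TE (EQ W) p) : PtW W) +
      (((Y 1 j : ZMod p) • b 1 : TE (EQ W) p) : PtW W)
    rw [hcast, hcast, ← he, ← hf]
    fin_cases j
    · change σ • ((b 0 : TE (EQ W) p) : PtW W) = _
      rw [← he]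
      exact hY.1
    · change σ • ((b 1 : TE (EQ W) p) : PtW W) = _
      rw [← hf]
      exact hY.2
  have h2 : ∀ i j, ρ σ i j = (Y i j : ZMod p) := by
    intro i j
    rw [hρ, LinearMap.toMatrixAlgEquiv_apply, h1, map_add, map_smul, map_smul, b.repr_self,
      b.repr_self]
    fin_cases i <;> simp
  rw [h2, map_intCast, hE]
  change residue O (mI O Y i j + (p ^ 1 : O) * E i j) = _
  rw [mI_apply, map_add, map_intCast, map_mul, pow_one,
    (residue_eq_zero_iff (p : O)).2 hpO, zero_mul, add_zero]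

/-- the determinant of a non-scalar matrix -/
theorem det_of_scalar {R : Type} [CommRing R] [IsDomain R] {A B : M2 R} (hAB : B * A = 1) {c y : R}
    (h : A + c • B = y • 1) (hns : A 0 1 ≠ 0 ∨ A 1 0 ≠ 0 ∨ A 0 0 ≠ A 1 1) : A.det = c := by
  have h1 : A * A + c • (1 : M2 R) = y • A := by
    have := congrArg (· * A) h
    simp only [add_mul, smul_mul_assoc, hAB, one_mul] at this
    exact this
  have hent : ∀ i j, A i 0 * A 0 j + A i 1 * A 1 j + c * (1 : M2 R) i j = y * A i j := fun i j => by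
    have := congrFun (congrFun h1 i) j
    simpa only [Matrix.add_apply, Matrix.mul_apply, Fin.sum_univ_two, Matrix.smul_apply,
      smul_eq_mul] using this
  have e00 := hent 0 0
  have e01 := hent 0 1
  have e10 := hent 1 0
  have e11 := hent 1 1
  simp only [Matrix.one_apply_eq, mul_one, Matrix.one_apply_ne (show (0 : Fin 2) ≠ 1 by decide),
    Matrix.one_apply_ne (show (1 : Fin 2) ≠ 0 by decide), mul_zero, add_zero] at e00 e01 e10 e11
  have ht : y = A 0 0 + A 1 1 := by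
    rcases hns with hb | hb | hb
    · exact mul_right_cancel₀ hb (by linear_combination -e01)
    · exact mul_right_cancel₀ hb (by linear_combination -e10)
    · exact mul_right_cancel₀ (sub_ne_zero.2 hb) (by linear_combination e11 - e00)
  rw [Matrix.det_fin_two]
  rw [ht] at e00
  linear_combination -e00

variable [IsDomain O]

/-- **the determinant is the cyclotomic character** -/
theorem rhoO_det (hΔ : W.Δ ≠ 0) (hp2 : p ≠ 2)
    {b : Basis (Fin 2) (ZMod p) (TE (EQ W) p)} (he : e 1 = (b 0 : TE (EQ W) p))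
    (hf : f 1 = (b 1 : TE (EQ W) p)) {ρ : 𝒢 →* M2 (ZMod p)}
    (hρ : ∀ σ, ρ σ = LinearMap.toMatrixAlgEquiv b (repE (EQ W) p σ))
    (κ : ZMod p →+* ResidueField O)
    (hconj : ρ complexConjugation = !![1, 0; 0, -1]) (σ : 𝒢) :
    (rhoO T hpO 𝒢 σ).det = cycO hpO σ := by
  set R : 𝒢 →* M2 O := rhoO T hpO 𝒢 with hR
  have hinv : ∀ g : 𝒢, R g⁻¹ * R g = 1 := fun g => by rw [← map_mul, inv_mul_cancel, map_one]
  have hinv' : ∀ g : 𝒢, R g * R g⁻¹ = 1 := fun g => by rw [← map_mul, mul_inv_cancel, map_one]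
  have key : ∀ g, (R g 0 1 ≠ 0 ∨ R g 1 0 ≠ 0 ∨ R g 0 0 ≠ R g 1 1) → (R g).det = cycO hpO g := by
    intro g hg
    obtain ⟨y, hy⟩ := rhoO_scalar T hpO hΔ hp2 g
    exact det_of_scalar (hinv g) hy hg
  -- complex conjugation is not a scalar
  have h2 : (2 : ZMod p) ≠ 0 := by
    intro h2
    have : ((2 : ℕ) : ZMod p) = 0 := by exact_mod_cast h2
    rw [ZMod.natCast_eq_zero_iff, Nat.prime_dvd_prime_iff_eq hp.out Nat.prime_two] at this
    exact hp2 this
  have hc : R complexConjugation 0 0 ≠ R complexConjugation 1 1 := by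
    intro h
    have h3 := congrArg (residue O) h
    rw [rhoO_res T hpO he hf hρ κ, rhoO_res T hpO he hf hρ κ, hconj] at h3
    have h4 := κ.injective h3
    apply h2
    have h5 : (1 : ZMod p) = -1 := h4
    linear_combination h5
  by_cases hσ : R σ 0 1 ≠ 0 ∨ R σ 1 0 ≠ 0 ∨ R σ 0 0 ≠ R σ 1 1
  · exact key σ hσ
  push Not at hσ
  obtain ⟨h01, h10, h00⟩ := hσ
  have hsc : R σ = R σ 1 1 • (1 : M2 O) := by
    ext i j
    fin_cases i <;> fin_cases j
    · simp [h00]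
    · simp [h01]
    · simp [h10]
    · simp
  have ha : R σ 1 1 ≠ 0 := by
    intro h0
    rw [h0, zero_smul] at hsc
    have := hinv' σ
    rw [hsc, zero_mul] at this
    exact zero_ne_one this
  have h3 := key (complexConjugation * σ) (Or.inr (Or.inr (by
    rw [map_mul, hsc, Matrix.mul_smul, Matrix.mul_one, Matrix.smul_apply, Matrix.smul_apply]
    intro h4
    exact hc (mul_left_cancel₀ ha h4))))
  rw [map_mul, Matrix.det_mul, key _ (Or.inr (Or.inr hc)), map_mul] at h3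
  refine mul_left_cancel₀ ?_ h3
  rw [cycO_conj]
  exact neg_ne_zero.2 one_ne_zero

/-- the trace of a Frobenius -/
theorem rhoO_trace (hΔ : W.Δ ≠ 0) (hp2 : p ≠ 2)
    {b : Basis (Fin 2) (ZMod p) (TE (EQ W) p)} (he : e 1 = (b 0 : TE (EQ W) p))
    (hf : f 1 = (b 1 : TE (EQ W) p)) {ρ : 𝒢 →* M2 (ZMod p)}
    (hρ : ∀ σ, ρ σ = LinearMap.toMatrixAlgEquiv b (repE (EQ W) p σ))
    (κ : ZMod p →+* ResidueField O)
    (hconj : ρ complexConjugation = !![1, 0; 0, -1]) {l : ℕ} (hl : l.Prime) (hlp : l ≠ p)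
    (hgood : ¬ (l : ℤ) ∣ W.Δ) {A : ValuationSubring Ω} (hA : A.LiesOverPrime l) {τ : 𝒢}
    (hτ : A.IsFrobeniusAt τ l) :
    (rhoO T hpO 𝒢 τ).trace = ((W.apOfModel l : ℤ) : O) := by
  haveI : Fact l.Prime := ⟨hl⟩
  have hdet := rhoO_det T hpO hΔ hp2 he hf hρ κ hconj τ
  rw [cycO_frob hpO hl hlp hA hτ] at hdet
  have h1 := rhoO_quad T hpO (σ := τ) (a := W.apOfModel l) (l := l) fun n P hP =>
    EllFrob.frobenius_rel W hgood hA hτ ((hp.out.odd_of_ne_two hp2).pow (n := n))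
      (not_dvd_pow hp.out hl hlp n) hP
  rw [Int.cast_natCast] at h1
  have hu : (rhoO T hpO 𝒢 τ).det ≠ 0 := by
    intro h0
    have := congrArg Matrix.det (show rhoO T hpO 𝒢 τ⁻¹ * rhoO T hpO 𝒢 τ = 1 by
      rw [← map_mul, inv_mul_cancel, map_one])
    rw [Matrix.det_mul, h0, mul_zero, Matrix.det_one] at this
    exact zero_ne_one this
  rw [hdet] at hu
  generalize rhoO T hpO 𝒢 τ = A at *
  have hent : ∀ i j, A i 0 * A 0 j + A i 1 * A 1 j - ((W.apOfModel l : ℤ) : O) * A i j +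
      (l : O) * (1 : M2 O) i j = 0 := fun i j => by
    have := congrFun (congrFun h1 i) j
    simpa only [Matrix.add_apply, Matrix.sub_apply, Matrix.mul_apply, Fin.sum_univ_two,
      Matrix.smul_apply, smul_eq_mul, Matrix.zero_apply] using this
  have e00 := hent 0 0
  have e01 := hent 0 1
  have e10 := hent 1 0
  have e11 := hent 1 1
  simp only [Matrix.one_apply_eq, mul_one, Matrix.one_apply_ne (show (0 : Fin 2) ≠ 1 by decide),
    Matrix.one_apply_ne (show (1 : Fin 2) ≠ 0 by decide), mul_zero, add_zero] at e00 e01 e10 e11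
  rw [Matrix.det_fin_two] at hdet
  rw [Matrix.trace_fin_two]
  -- `(t - a) A = 0`
  have f00 : (A 0 0 + A 1 1 - ((W.apOfModel l : ℤ) : O)) * A 0 0 = 0 := by
    linear_combination e00 + hdet
  have f01 : (A 0 0 + A 1 1 - ((W.apOfModel l : ℤ) : O)) * A 0 1 = 0 := by
    linear_combination e01
  by_contra hne
  have h0 : A 0 0 + A 1 1 - ((W.apOfModel l : ℤ) : O) ≠ 0 := sub_ne_zero.2 hne
  have g00 := (mul_eq_zero.1 f00).resolve_left h0
  have g01 := (mul_eq_zero.1 f01).resolve_left h0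
  rw [g00, g01] at hdet
  exact hu (by rw [← hdet]; ring)

end Fermat.Agent.WPt
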