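import Fermat.Agent.WPt.Tate

/-!
# Matrices on Tate modules: the limit
-/

set_option autoImplicit false
set_option linter.unusedSectionVars false
set_option linter.style.haveILetI false

noncomputable section

namespace Fermat.Agent.WPt

open Matrix IsLocalRing Fermat.Agent.Sel

/-- reduction of an integral matrix -/
def mI (O : Type) [CommRing O] : M2 ℤ →+* M2 O := (Int.castRingHom O).mapMatrix

theorem mI_apply (O : Type) [CommRing O] (Y : M2 ℤ) (i j : Fin 2) : mI O Y i j = (Y i j : O) := rfl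

theorem mI_smul (O : Type) [CommRing O] (c : ℤ) (Y : M2 ℤ) : mI O (c • Y) = (c : O) • mI O Y := by
  ext i j
  rw [mI_apply, Matrix.smul_apply, Matrix.smul_apply, mI_apply, smul_eq_mul, smul_eq_mul]
  push_cast
  rfl

variable {O : Type} [CommRing O] {p : ℕ} {V : Type*} [AddCommGroup V]

/-- the matrix `Z` is the limit of the matrices of `φ n` on the `p ^ n`-torsion -/
def IsLim (p : ℕ) (e f : ℕ → V) (φ : ℕ → V →+ V) (Z : M2 O) : Prop :=
  ∀ n, ∃ Y : M2 ℤ, TSeq.IsMat e f n (φ n) Y ∧ ∃ E : M2 O, Z = mI O Y + (p ^ n : O) • E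

variable {e f : ℕ → V} {φ ψ : ℕ → V →+ V} {Z Z' : M2 O}

theorem IsLim.add (h : IsLim p e f φ Z) (h' : IsLim p e f ψ Z') :
    IsLim p e f (fun n => φ n + ψ n) (Z + Z') := by
  intro n
  obtain ⟨Y, hY, E, hE⟩ := h n
  obtain ⟨Y', hY', E', hE'⟩ := h' n
  refine ⟨Y + Y', hY.add hY', E + E', ?_⟩
  rw [hE, hE', map_add, smul_add]
  abel

theorem IsLim.mul (h : IsLim p e f φ Z) (h' : IsLim p e f ψ Z') :
    IsLim p e f (fun n => (φ n).comp (ψ n)) (Z * Z') := by
  intro n
  obtain ⟨Y, hY, E, hE⟩ := h n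
  obtain ⟨Y', hY', E', hE'⟩ := h' n
  refine ⟨Y * Y', hY.comp hY', mI O Y * E' + E * mI O Y' + (p ^ n : O) • (E * E'), ?_⟩
  rw [hE, hE', map_mul, add_mul, mul_add, mul_add, smul_mul_assoc, smul_mul_assoc, mul_smul_comm,
    mul_smul_comm, smul_add, smul_add]
  abel

theorem isLim_zsmul {c : ℕ → ℤ} {z : O} (h : ∀ n, ∃ w : O, z = (c n : O) + (p ^ n : O) * w) :
    IsLim p e f (fun n => zsmulAddGroupHom (c n)) (z • (1 : M2 O)) := by
  intro n
  obtain ⟨w, hw⟩ := h n
  refine ⟨_, TSeq.isMat_zsmul n (c n), w • 1, ?_⟩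
  rw [mI_smul, map_one, hw, add_smul, mul_smul]

theorem isLim_one : IsLim p e f (fun _ => AddMonoidHom.id V) (1 : M2 O) := by
  intro n
  refine ⟨1, ⟨by simp, by simp⟩, 0, by simp⟩

theorem isLim_zero : IsLim p e f (fun _ => (0 : V →+ V)) (0 : M2 O) := by
  intro n
  refine ⟨0, ⟨by simp, by simp⟩, 0, by simp⟩

variable (T : TSeq p e f)
include T

theorem IsLim.congr (h : IsLim p e f φ Z) (hφ : ∀ n P, p ^ n • P = 0 → φ n P = ψ n P) :
    IsLim p e f ψ Z := by
  intro n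
  obtain ⟨Y, hY, E, hE⟩ := h n
  exact ⟨Y, ⟨by rw [← hφ n _ (T.tors_e n)]; exact hY.1, by
    rw [← hφ n _ (T.tors_f n)]; exact hY.2⟩, E, hE⟩

theorem IsLim.isMat (h : IsLim p e f φ Z) {n : ℕ} {Y : M2 ℤ} (hY : TSeq.IsMat e f n (φ n) Y) :
    ∃ E : M2 O, Z = mI O Y + (p ^ n : O) • E := by
  obtain ⟨Y', hY', E, hE⟩ := h n
  obtain ⟨E', hE'⟩ := hY'.unique T hY
  refine ⟨mI O E' + E, ?_⟩
  rw [hE, hE', map_add, mI_smul, smul_add]
  push_cast
  abel

variable [IsLocalRing O] [IsNoetherianRing O] (hpO : (p : O) ∈ maximalIdeal O)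
include hpO

theorem IsLim.unique (h : IsLim p e f φ Z) (h' : IsLim p e f φ Z') : Z = Z' := by
  refine TW.eq_of_forall_pow (X := M2 O) hpO fun n => ?_
  obtain ⟨Y, hY, E, hE⟩ := h n
  obtain ⟨E', hE'⟩ := h'.isMat T hY
  refine ⟨E - E', ?_⟩
  rw [hE, hE', smul_sub]
  abel

theorem IsLim.eq_zero (h : IsLim p e f φ Z) (hφ : ∀ n P, p ^ n • P = 0 → φ n P = 0) : Z = 0 :=
  (h.congr T (ψ := fun _ => 0) hφ).unique T hpO isLim_zero

theorem exists_lim [IsAdicComplete (maximalIdeal O) O] (φ : V →+ V) :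
    ∃ Z : M2 O, IsLim p e f (fun _ => φ) Z := by
  choose Y hY using fun n => T.exists_isMat n φ
  obtain ⟨Z, hZ⟩ := TW.exists_lim_seq (X := M2 O) hpO (fun n => mI O (Y n)) fun n => by
    obtain ⟨E, hE⟩ := ((hY (n + 1)).down T).unique T (hY n)
    refine ⟨mI O E, ?_⟩
    rw [hE, map_add, mI_smul]
    push_cast
    rfl
  exact ⟨Z, fun n => ⟨Y n, hY n, hZ n⟩⟩

end Fermat.Agent.WPt

namespace Fermat.Agent.WPt

open Matrix IsLocalRing Fermat.Agent.Sel

variable {O : Type} [CommRing O] {p : ℕ} {V : Type*} [AddCommGroup V] {e f : ℕ → V}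
  (T : TSeq p e f) [IsLocalRing O] [IsNoetherianRing O] [IsAdicComplete (maximalIdeal O) O]
  (hpO : (p : O) ∈ maximalIdeal O) (G : Type*) [Group G] [DistribMulAction G V]

/-- the matrix representation on the Tate module -/
def rhoO : G →* M2 O where
  toFun g := (exists_lim T hpO (DistribSMul.toAddMonoidHom V g)).choose
  map_one' := by
    refine IsLim.unique T hpO (exists_lim T hpO (DistribSMul.toAddMonoidHom V (1 : G))).choose_spec
      (isLim_one.congr T fun n P _ => ?_)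
    simp
  map_mul' a b := by
    refine IsLim.unique T hpO
      (exists_lim T hpO (DistribSMul.toAddMonoidHom V (a * b))).choose_spec
      (((exists_lim T hpO (DistribSMul.toAddMonoidHom V a)).choose_spec.mul
        (exists_lim T hpO (DistribSMul.toAddMonoidHom V b)).choose_spec).congr T fun n P _ => ?_)
    simp [mul_smul]

theorem rhoO_spec (g : G) : IsLim p e f (fun _ => DistribSMul.toAddMonoidHom V g)
    (rhoO T hpO G g : M2 O) :=
  (exists_lim T hpO (DistribSMul.toAddMonoidHom V g)).choose_spec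

end Fermat.Agent.WPt
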