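import Fermat.Agent.WPt.Mult
import Fermat.Agent.WPt.Base
import Fermat.Agent.TWG.Frob

/-!
# The local structure at a prime of multiplicative reduction
-/

set_option autoImplicit false
set_option linter.unusedSectionVars false
set_option linter.style.haveILetI false

noncomputable section

namespace Fermat.Agent.WPt

open Matrix Module Fermat.Agent.GalRep Fermat.Agent.PRem Fermat.Agent.EC Fermat.Agent.Sel
  Fermat.Agent.CL Fermat.Agent.TWG Fermat.Agent.ImW
open WeierstrassCurve WeierstrassCurve.Affine WeierstrassCurve.Affine.Point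
open scoped Pointwise

local notation "Ω" => AlgebraicClosure ℚ

local notation "𝒢" => (AlgebraicClosure ℚ) ≃ₐ[ℚ] (AlgebraicClosure ℚ)

/-- quadratic characters -/
theorem exists_quad {δ : Ω} (hδ : δ ≠ 0) (h2 : ∀ τ : 𝒢, τ (δ ^ 2) = δ ^ 2) :
    ∃ χ : 𝒢 →* ℤˣ, ∀ τ : 𝒢, τ δ = (((χ τ : ℤˣ) : ℤ) : Ω) * δ := by
  classical
  have hpm : ∀ τ : 𝒢, τ δ = δ ∨ τ δ = -δ := fun τ => by
    have h := h2 τ
    rw [map_pow] at h
    exact sq_eq_sq_iff_eq_or_eq_neg.1 h
  let c : 𝒢 → ℤˣ := fun τ => if τ δ = δ then 1 else -1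
  have hc : ∀ τ : 𝒢, τ δ = (((c τ : ℤˣ) : ℤ) : Ω) * δ := fun τ => by
    by_cases h : τ δ = δ
    · simp only [c, if_pos h, Units.val_one, Int.cast_one, one_mul]
      exact h
    · simp only [c, if_neg h, Units.val_neg, Units.val_one, Int.cast_neg, Int.cast_one, neg_mul,
        one_mul]
      exact (hpm τ).resolve_left h
  have hinj : ∀ a b : ℤˣ, (((a : ℤ) : Ω) * δ = ((b : ℤ) : Ω) * δ) → a = b := fun a b h => by
    have h1 := mul_right_cancel₀ hδ h
    exact Units.ext (Int.cast_injective h1)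
  refine ⟨⟨⟨c, hinj _ _ ?_⟩, fun σ τ => hinj _ _ ?_⟩, hc⟩
  · rw [← hc]
    simp
  · rw [← hc, AlgEquiv.mul_apply, hc τ, map_mul, map_intCast, hc σ]
    push_cast
    ring

/-- the sign of a quadratic character -/
theorem unit_cases (a : ℤˣ) : a = 1 ∨ a = -1 := Int.units_eq_one_or a

/-- **the local structure at a prime of multiplicative reduction** -/
theorem mult_local {W : WeierstrassCurve ℤ} (hΔ : W.Δ ≠ 0) {q : ℕ} (hq : q.Prime)
    (hd : (q : ℤ) ∣ W.Δ) (hc4 : ¬ (q : ℤ) ∣ W.c₄) :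
    ∃ (χ : 𝒢 →* ℤˣ) (ε : ℤˣ), ∀ A : ValuationSubring Ω, A.LiesOverPrime q →
      (∀ σ ∈ A.inertiaSubgroupIn ℚ, χ σ = 1) ∧
      (∀ Φ : 𝒢, A.IsFrobeniusAt Φ q → χ Φ = ε) ∧
      ∃ H : AddSubgroup (PtW W), (∀ m : ℕ, Odd m → ∀ P : PtW W, m • P = 0 →
        ∀ σ ∈ A.decompositionSubgroup ℚ, σ • P - ((χ σ : ℤˣ) : ℤ) • P ∈ H) ∧
        ∀ p : ℕ, p.Prime → Odd p → ∃ P : PtW W, p • P = 0 ∧ P ∉ H := by
  classical
  have hmult : ∀ A : ValuationSubring Ω, A.LiesOverPrime q →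
      IsMult A.valuation ((EQ W)⁄Ω) := fun A hA => by
    have hv := val_lt_of_liesOver hA
    refine ⟨isInt_EQ W _, ?_, ?_, ?_, val_nat_le _⟩
    · rw [val_Δ]
      exact val_int_lt _ hv hd
    · rw [EQK_eq, WeierstrassCurve.map_c₄, eq_intCast]
      exact val_int_eq_one_of_not_dvd _ hq hv hc4
    · rw [EQK_eq, WeierstrassCurve.map_Δ, eq_intCast]
      exact_mod_cast hΔ
  -- the discriminant of the tangent directions
  set E : WeierstrassCurve Ω := (EQ W)⁄Ω with hE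
  obtain ⟨δ, hδ⟩ := IsAlgClosed.exists_pow_nat_eq (12 * nodeX E + E.b₂) (n := 2) (by norm_num)
  have hb2 : ∀ τ : 𝒢, τ E.b₂ = E.b₂ := fun τ => by
    have e : E.b₂ = algebraMap ℚ Ω (EQ W).b₂ := WeierstrassCurve.map_b₂ _ _
    rw [e, AlgEquiv.commutes]
  have ha1 : ∀ τ : 𝒢, τ E.a₁ = E.a₁ := fun τ => AlgEquiv.commutes _ _
  have hfix : ∀ τ : 𝒢, τ (δ ^ 2) = δ ^ 2 := fun τ => by
    rw [hδ, map_add, map_mul, map_nodeX τ, hb2, map_ofNat]
  have hvδ : ∀ A : ValuationSubring Ω, A.LiesOverPrime q → A.valuation δ = 1 := fun A hA => by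
    have h := hmult A hA
    have h1 : A.valuation (δ ^ 2) = 1 := by
      rw [hδ, nodeX, lin_id E h.c₄0, map_div₀, Valuation.map_neg, h.v_c₆, h.c₄, div_one]
    rw [map_pow] at h1
    exact (pow_eq_one_iff.mp h1).resolve_right two_ne_zero
  obtain ⟨A₀, hA₀⟩ := Places.exists_liesOverPrime Ω hq
  have hδ0 : δ ≠ 0 := by
    rintro rfl
    have := hvδ A₀ hA₀
    rw [_root_.map_zero] at this
    exact zero_ne_one this
  obtain ⟨χ, hχ⟩ := exists_quad hδ0 hfix
  have hχ1 : ∀ τ, χ τ = 1 → τ δ = δ := fun τ h => by rw [hχ, h]; simp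
  have hχm : ∀ τ, χ τ = -1 → τ δ = -δ := fun τ h => by rw [hχ, h]; simp
  -- the branches
  have hbr : ∀ A : ValuationSubring Ω, A.LiesOverPrime q → ∀ r t tp tm : Ω,
      MultT A.valuation E r t tp tm → A.valuation (r - nodeX E) < 1 →
      ∃ s : Ω, A.valuation (tp - s) < 1 ∧ (∀ τ, χ τ = 1 → τ s = s) ∧
        (∀ τ, χ τ = -1 → τ s = - E.a₁ - s) ∧ A.valuation (- E.a₁ - s - s) = 1 := by
    intro A hA r t tp tm M hr
    have h := hmult A hA
    have e1 : (tp - (δ - E.a₁) / 2) * (tp - (-δ - E.a₁) / 2) = 3 * (r - nodeX E) := by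
      have hs := M.hsum
      have hp := M.hprod
      have hb : E.b₂ = E.a₁ ^ 2 + 4 * E.a₂ := rfl
      rw [tA2] at hp
      rw [hb] at hδ
      linear_combination tp * hs - hp - (1 / 4) * hδ
    have e2 : A.valuation ((tp - (δ - E.a₁) / 2) * (tp - (-δ - E.a₁) / 2)) < 1 := by
      rw [e1]
      have := h.val_mul_nat 3 (r - nodeX E)
      push_cast at this
      exact this.trans_lt hr
    have h1 : ∀ τ : 𝒢, χ τ = 1 → ∀ ε : Ω, τ ε = ε → τ ((ε * δ - E.a₁) / 2) = (ε * δ - E.a₁) / 2 :=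
      fun τ hτ ε hε => by
        rw [map_div₀, map_sub, map_mul, hχ1 τ hτ, ha1, map_ofNat, hε]
    have hm1 : ∀ τ : 𝒢, χ τ = -1 → ∀ ε : Ω, τ ε = ε → τ ((ε * δ - E.a₁) / 2) =
        - E.a₁ - (ε * δ - E.a₁) / 2 :=
      fun τ hτ ε hε => by
        rw [map_div₀, map_sub, map_mul, hχm τ hτ, ha1, map_ofNat, hε]
        ring
    by_cases h3 : A.valuation (tp - (δ - E.a₁) / 2) < 1
    · refine ⟨(δ - E.a₁) / 2, h3, fun τ hτ => ?_, fun τ hτ => ?_, ?_⟩
      · have := h1 τ hτ 1 (map_one τ)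
        rwa [one_mul] at this
      · have := hm1 τ hτ 1 (map_one τ)
        rwa [one_mul] at this
      · have e : - E.a₁ - (δ - E.a₁) / 2 - (δ - E.a₁) / 2 = -δ := by ring
        rw [e, Valuation.map_neg, hvδ A hA]
    · have h4 : A.valuation (tp - (-δ - E.a₁) / 2) < 1 := by
        by_contra h4
        push Not at h3 h4
        rw [map_mul] at e2
        exact absurd e2 (not_lt.mpr (one_le_mul h3 h4))
      refine ⟨(-δ - E.a₁) / 2, h4, fun τ hτ => ?_, fun τ hτ => ?_, ?_⟩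
      · have := h1 τ hτ (-1) (by rw [map_neg, map_one])
        rwa [neg_one_mul] at this
      · have := hm1 τ hτ (-1) (by rw [map_neg, map_one])
        rwa [neg_one_mul] at this
      · have e : - E.a₁ - (-δ - E.a₁) / 2 - (-δ - E.a₁) / 2 = δ := by ring
        rw [e, hvδ A hA]
  -- triviality on inertia
  have hin : ∀ A : ValuationSubring Ω, A.LiesOverPrime q → ∀ σ ∈ A.inertiaSubgroupIn ℚ, χ σ = 1 := by
    intro A hA σ hσ
    rcases unit_cases (χ σ) with h1 | h1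
    · exact h1
    exfalso
    have hτ : IsInert A.valuation σ := isInert_of_mem A hσ
    obtain ⟨r, t, M, hm, hm0, hB, hr⟩ := (hmult A hA).exists_pt
    obtain ⟨tp, tm, MM⟩ := exists_MultT M hm hm0 hB
    obtain ⟨s, hs, -, hs2, hs3⟩ := hbr A hA r t tp tm MM hr
    have hvs : A.valuation s ≤ 1 := by
      have e : s = tp - (tp - s) := by ring
      rw [e]
      exact A.valuation.map_sub_le MM.vtp hs.le
    have h2 := hτ.sub_lt s hvs
    rw [hs2 σ h1, hs3] at h2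
    exact lt_irrefl _ h2
  have hDin : ∀ A : ValuationSubring Ω, A.LiesOverPrime q →
      ∃ H : AddSubgroup (PtW W), (∀ m : ℕ, Odd m → ∀ P : PtW W, m • P = 0 →
        ∀ σ ∈ A.decompositionSubgroup ℚ, σ • P - ((χ σ : ℤˣ) : ℤ) • P ∈ H) ∧
        ∀ p : ℕ, p.Prime → Odd p → ∃ P : PtW W, p • P = 0 ∧ P ∉ H := by
    intro A hA
    obtain ⟨r, t, M, hm, hm0, hB, hr⟩ := (hmult A hA).exists_pt
    obtain ⟨tp, tm, MM⟩ := exists_MultT M hm hm0 hB
    obtain ⟨s, hs, hs1, hs2, -⟩ := hbr A hA r t tp tm MM hr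
    refine ⟨MM.toIntT.E0 MM.hm, ?_, ?_⟩
    · intro m hodd P hP σ hσ
      have hτ : ∀ x, A.valuation (σ x) = A.valuation x := fun x => valuation_map_eq A hσ x
      obtain ⟨hr', ht'⟩ := near_dec (hmult A hA) hτ M hB hr
      rcases unit_cases (χ σ) with h1 | h1
      · rw [h1, Units.val_one, one_zsmul]
        refine sub_mem_dec hτ MM hr' ht' ?_ hodd hP
        have e : σ tp - tp = σ (tp - s) - (tp - s) := by
          rw [map_sub, hs1 σ h1]; ring
        rw [e]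
        exact A.valuation.map_sub_lt (by rw [hτ]; exact hs) hs
      · rw [h1, Units.val_neg, Units.val_one, neg_one_zsmul, sub_neg_eq_add]
        refine add_mem_dec hτ MM hr' ht' ?_ hodd hP
        have e : σ tp - tm = σ (tp - s) + (tp - s) := by
          rw [map_sub, hs2 σ h1]
          linear_combination -MM.hsum
        rw [e]
        exact A.valuation.map_add_lt (by rw [hτ]; exact hs) hs
    · intro p hp hp2
      have hv := val_lt_of_liesOver hA
      have hΔ' : E.Δ ≠ 0 := (hmult A hA).Δ0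
      refine exists_not_E0' (isInt_EQ W _) hΔ' MM.toIntT MM.hm hB hp2 hp.one_lt ?_
      by_cases hpq : q = p
      · right
        have h2 : ¬ (q : ℤ) ∣ 2 := by
          intro h2
          have h3 : q ∣ 2 := by exact_mod_cast h2
          rw [Nat.prime_dvd_prime_iff_eq hq Nat.prime_two] at h3
          rw [← hpq, h3] at hp2
          exact absurd hp2 (by decide)
        exact_mod_cast val_int_eq_one_of_not_dvd A.valuation hq hv h2
      · left
        have h2 : ¬ (q : ℤ) ∣ (p : ℤ) := by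
          rw [Int.natCast_dvd_natCast, Nat.prime_dvd_prime_iff_eq hq hp]
          exact hpq
        exact_mod_cast val_int_eq_one_of_not_dvd A.valuation hq hv h2
  by_cases hF : ∃ A : ValuationSubring Ω, A.LiesOverPrime q ∧ ∃ Φ : 𝒢, A.IsFrobeniusAt Φ q
  · obtain ⟨A₁, hA₁, Φ₁, hΦ₁⟩ := hF
    refine ⟨χ, χ Φ₁, fun A hA => ⟨hin A hA, fun Φ hΦ => ?_, hDin A hA⟩⟩
    obtain ⟨g, rfl⟩ := Places.exists_smul_eq_of_liesOverPrime hq A₁ A hA₁ hA
    have h1 := hin _ hA _ (frob_frob (frob_conj (g := g) hq.ne_zero hΦ₁) hΦ)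
    rw [map_mul, map_inv, map_mul, map_mul, map_inv] at h1
    have h2 : χ g * χ Φ₁ * (χ g)⁻¹ = χ Φ₁ := by
      rw [mul_comm (χ g), mul_assoc, mul_inv_cancel, mul_one]
    rw [h2] at h1
    exact (inv_mul_eq_one.1 h1).symm
  · refine ⟨χ, 1, fun A hA => ⟨hin A hA, fun Φ hΦ => absurd ⟨A, hA, Φ, hΦ⟩ hF, hDin A hA⟩⟩

end Fermat.Agent.WPt
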