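import Fermat.Agent.CL.Inert
import Fermat.Agent.EC.WildTors

/-!
# The decomposition group acts on the torsion of a curve with multiplicative reduction
-/

set_option autoImplicit false
set_option linter.unusedSectionVars false

namespace Fermat.Agent.WPt

open WeierstrassCurve WeierstrassCurve.Affine WeierstrassCurve.Affine.Point
open Fermat.Agent.EC Fermat.Agent.CL

variable {F K : Type*} [Field F] [Field K] [Algebra F K] {Γ₀ : Type*}
  [LinearOrderedCommGroupWithZero Γ₀]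
variable {W : Affine F} {v : Valuation K Γ₀} {τ : K ≃ₐ[F] K} {r t : K}

theorem map_nodeX (τ : K ≃ₐ[F] K) : τ (nodeX (W⁄K)) = nodeX (W⁄K) := by
  have e : nodeX (W⁄K) = algebraMap F K (nodeX W) := by
    change nodeX (WeierstrassCurve.map W (algebraMap F K)) = _
    simp only [nodeX, map_div₀, map_sub, map_mul, map_ofNat, WeierstrassCurve.map_b₂,
      WeierstrassCurve.map_b₄, WeierstrassCurve.map_b₆, WeierstrassCurve.map_c₄]
  rw [e, AlgEquiv.commutes]

/-- the ramification of the two-torsion point is bounded -/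
lemma near_dec [IsAlgClosed K] [CharZero K] (h : IsMult v (W⁄K)) (hτ : ∀ x, v (τ x) = v x)
    (M : IntT v (W⁄K) r t)
    (hB : v ((W⁄K).a₁ ^ 2 + 4 * tA2 (W⁄K) r) = 1) (hr : v (r - nodeX (W⁄K)) < 1) :
    v (τ r - r) ≤ v (tA4 (W⁄K) r t) ∧ v (τ t - t) ≤ v (tA4 (W⁄K) r t) := by
  have hn := h.nat
  have hτW : τ (nodeX (W⁄K)) = nodeX (W⁄K) := map_nodeX τ
  have ha1 : τ (W⁄K).a₁ = (W⁄K).a₁ := AlgEquiv.commutes _ _
  have ha2 : τ (W⁄K).a₂ = (W⁄K).a₂ := AlgEquiv.commutes _ _
  have ha3 : τ (W⁄K).a₃ = (W⁄K).a₃ := AlgEquiv.commutes _ _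
  have ha4 : τ (W⁄K).a₄ = (W⁄K).a₄ := AlgEquiv.commutes _ _
  have ha6 : τ (W⁄K).a₆ = (W⁄K).a₆ := AlgEquiv.commutes _ _
  set z : K := τ r - r with hz
  have hvz : v z < 1 := by
    have e : z = τ (r - nodeX (W⁄K)) - (r - nodeX (W⁄K)) := by
      rw [map_sub τ, hτW, hz]; ring
    rw [e]
    exact v.map_sub_lt (by rw [hτ]; exact hr) hr
  have hE := M.eqn
  rw [equation_iff] at hE
  have h2 := M.two
  have hE' : τ t ^ 2 + (W⁄K).a₁ * τ r * τ t + (W⁄K).a₃ * τ t = τ r ^ 3 + (W⁄K).a₂ * τ r ^ 2 +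
      (W⁄K).a₄ * τ r + (W⁄K).a₆ := by
    have := congrArg τ hE
    simp only [map_add, map_mul, map_pow, ha1, ha2, ha3, ha4, ha6] at this
    exact this
  have h2' : 2 * τ t + (W⁄K).a₁ * τ r + (W⁄K).a₃ = 0 := by
    have := congrArg τ h2
    simp only [map_add, map_mul, ha1, ha3, _root_.map_zero, map_ofNat] at this
    exact this
  have e1 : z * (4 * z ^ 2 + ((W⁄K).a₁ ^ 2 + 4 * tA2 (W⁄K) r) * z + 4 * tA4 (W⁄K) r t) = 0 := by
    have hτr : τ r = r + z := by rw [hz]; ring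
    rw [hτr] at hE' h2'
    simp only [tA2, tA4]
    linear_combination (-4) * hE' + 4 * hE + (2 * τ t + (W⁄K).a₁ * (r + z) + (W⁄K).a₃) * h2' -
      (2 * t + (W⁄K).a₁ * r + (W⁄K).a₃) * h2 - 2 * z * (W⁄K).a₁ * h2
  have h4 : v (4 * tA4 (W⁄K) r t) ≤ v (tA4 (W⁄K) r t) := by
    have := h.val_mul_nat 4 (tA4 (W⁄K) r t)
    exact_mod_cast this
  have hz4 : v z = 0 ∨ v z = v (4 * tA4 (W⁄K) r t) := by
    rcases mul_eq_zero.mp e1 with h0 | h0
    · left; rw [h0, _root_.map_zero]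
    by_cases hz0 : z = 0
    · left; rw [hz0, _root_.map_zero]
    right
    have hvz0 : 0 < v z := zero_lt_iff.mpr ((Valuation.ne_zero_iff _).mpr hz0)
    have e2 : 4 * tA4 (W⁄K) r t = -(((W⁄K).a₁ ^ 2 + 4 * tA2 (W⁄K) r) * z + 4 * z ^ 2) := by
      linear_combination h0
    rw [e2, Valuation.map_neg, Valuation.map_add_eq_of_lt_left, map_mul, hB, one_mul]
    rw [map_mul _ _ z, hB, one_mul]
    refine lt_of_le_of_lt (b := v (z ^ 2)) ?_ ?_
    · have := h.val_mul_nat 4 (z ^ 2)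
      exact_mod_cast this
    · rw [map_pow, sq]
      exact mul_lt_of_lt_one_left hvz0 hvz
  have hvz4 : v z ≤ v (4 * tA4 (W⁄K) r t) := by
    rcases hz4 with h0 | h0
    · rw [h0]; exact zero_le
    · exact h0.le
  refine ⟨hvz4.trans h4, ?_⟩
  -- `2 (τ t - t) = - a₁ z`
  have e3 : 2 * (τ t - t) = -((W⁄K).a₁ * z) := by
    rw [hz]; linear_combination h2' - h2
  have h5 : v (2 : K) * v (τ t - t) ≤ v (2 : K) * (v (2 : K) * v (tA4 (W⁄K) r t)) := by
    rw [← map_mul, e3, Valuation.map_neg, map_mul]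
    refine (mul_le_of_le_one_left' h.int.a₁).trans (hvz4.trans ?_)
    rw [show (4 : K) = 2 * 2 by norm_num, map_mul, map_mul, mul_assoc]
  have h20 : 0 < v (2 : K) := zero_lt_iff.mpr ((Valuation.ne_zero_iff _).mpr two_ne_zero)
  refine (le_of_mul_le_mul_left h5 h20).trans (mul_le_of_le_one_left' (by exact_mod_cast hn 2))

section

variable [DecidableEq K]

omit [DecidableEq K] in
/-- The decomposition group permutes the branches. -/
lemma inD_dec (hτ : ∀ x, v (τ x) = v x) {tp tm tp' : K}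
    (M : MultT v (W⁄K) r t tp tm) (hr : v (τ r - r) ≤ v (tA4 (W⁄K) r t))
    (ht : v (τ t - t) ≤ v (tA4 (W⁄K) r t)) (htp : v (τ tp - tp') < 1)
    {x y : K} {h : (W⁄K).Nonsingular x y}
    (D : InD v (W⁄K) r t tp (Point.some x y h)) :
    v (τ x - r) = v (x - r) ∧
    InD v (W⁄K) r t tp' (Point.some (τ x) (τ y) (nonsingular_map τ h)) := by
  obtain ⟨x', y', h', he, a1, a2, a3⟩ := D
  rw [Point.some.injEq] at he
  obtain ⟨rfl, rfl⟩ := he
  have hτx : v (τ x - r) = v (x - r) := by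
    have e : τ x - r = τ (x - r) + (τ r - r) := by rw [map_sub τ]; ring
    rw [e, Valuation.map_add_eq_of_lt_left, hτ]
    rw [hτ]
    exact hr.trans_lt a1
  have hxr : x ≠ r := by
    rintro rfl
    rw [sub_self, _root_.map_zero] at a1
    exact absurd a1 (not_lt.mpr zero_le)
  have hτxr : τ x ≠ r := by
    intro h0
    rw [h0, sub_self, _root_.map_zero] at hτx
    rw [← hτx] at a1
    exact absurd a1 (not_lt.mpr zero_le)
  have hxr0 : x - r ≠ 0 := sub_ne_zero.mpr hxr
  have hs1 : v (sl r t x y) ≤ 1 := by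
    have e2 : sl r t x y = (sl r t x y - tp) + tp := by ring
    rw [e2]
    exact v.map_add_le a3.le M.vtp
  have hyt : v (y - t) ≤ v (x - r) := by
    have e : y - t = sl r t x y * (x - r) := by rw [sl, div_mul_cancel₀ _ hxr0]
    rw [e, map_mul]
    exact mul_le_of_le_one_left' hs1
  refine ⟨hτx, _, _, _, rfl, ?_, ?_, ?_⟩
  · rw [hτx]; exact a1
  · rw [hτx]; exact a2
  · have e : sl r t (τ x) (τ y) - tp' =
        (sl r t (τ x) (τ y) - τ (sl r t x y)) + (τ (sl r t x y - tp) + (τ tp - tp')) := by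
      rw [map_sub τ]; ring
    rw [e]
    refine v.map_add_lt ?_ (v.map_add_lt (by rw [hτ]; exact a3) htp)
    have hu0 : τ (x - r) ≠ 0 := by rwa [Ne, EmbeddingLike.map_eq_zero_iff]
    have h3 := div_sub_div_val (v := v) (a := τ (y - t)) (b := τ (x - r)) (c := τ y - t)
      (d := τ x - r) (ε := v (tA4 (W⁄K) r t)) hu0
      (sub_ne_zero.mpr hτxr) (by rw [hτ, hτx]) (by rw [hτ, hτ]; exact hyt)
      (by
        have e : τ y - t - τ (y - t) = τ t - t := by rw [map_sub τ]; ring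
        rw [e]; exact ht)
      (by
        have e : τ x - r - τ (x - r) = τ r - r := by rw [map_sub τ]; ring
        rw [e]; exact hr)
    have e4 : sl r t (τ x) (τ y) - τ (sl r t x y) = (τ y - t) / (τ x - r) -
        τ (y - t) / τ (x - r) := by
      rw [sl, sl, map_div₀]
    rw [← e4, hτ] at h3
    by_contra hge
    push Not at hge
    have h5 : v (x - r) ≤ v (tA4 (W⁄K) r t) := (le_mul_of_one_le_left' hge).trans h3
    exact absurd a1 (not_lt.mpr h5)

/-- `E0` is stable under the decomposition group -/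
lemma mem_E0_dec (hτ : ∀ x, v (τ x) = v x) (M : IntT v (W⁄K) r t)
    (hm : v (tA4 (W⁄K) r t) < 1) (hr : v (τ r - r) < 1) {P : (W⁄K).Point}
    (hP : P ∈ M.E0 hm) : τ • P ∈ M.E0 hm := by
  rcases P with _ | ⟨x, y, h⟩
  · exact zero_mem _
  rw [M.mem_E0_some] at hP
  rw [smul_some, M.mem_E0_some]
  have e : τ x - r = τ (x - r) + (τ r - r) := by rw [map_sub τ]; ring
  rw [e, Valuation.map_add_eq_of_lt_left, hτ]
  · exact hP
  · rw [hτ]
    exact hr.trans_le hP

/-- torsion points of odd order outside `E0` lie on a branch -/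
lemma inD_of_odd {tp tm : K} (M : MultT v (W⁄K) r t tp tm) {m : ℕ} (hodd : Odd m)
    {x y : K} {h : (W⁄K).Nonsingular x y} (hP : m • (Point.some x y h : (W⁄K).Point) = 0)
    (hP0 : (Point.some x y h : (W⁄K).Point) ∉ M.toIntT.E0 M.hm) :
    InD v (W⁄K) r t tp (Point.some x y h) ∨ InD v (W⁄K) r t tm (Point.some x y h) := by
  apply M.inD_or
  · by_contra hle
    push Not at hle
    have h2 := M.two_nsmul_mem_E0 h hle
    exact hP0 (mem_of_coprime_nsmul_mem _ hP hodd.coprime_two_left h2)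
  · by_contra hle
    push Not at hle
    apply hP0
    rw [M.toIntT.mem_E0_some]
    exact hle

/-- the decomposition group, preserving the branches -/
lemma sub_mem_dec (hτ : ∀ x, v (τ x) = v x) {tp tm : K}
    (M : MultT v (W⁄K) r t tp tm) (hr : v (τ r - r) ≤ v (tA4 (W⁄K) r t))
    (ht : v (τ t - t) ≤ v (tA4 (W⁄K) r t)) (htp : v (τ tp - tp) < 1) {m : ℕ} (hodd : Odd m)
    {P : (W⁄K).Point} (hP : m • P = 0) :
    τ • P - P ∈ M.toIntT.E0 M.hm := by
  by_cases hP0 : P ∈ M.toIntT.E0 M.hm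
  · exact sub_mem (mem_E0_dec hτ M.toIntT M.hm (hr.trans_lt M.hm) hP0) hP0
  rcases P with _ | ⟨x, y, h⟩
  · exact absurd (zero_mem _) hP0
  have ha1 : τ (W⁄K).a₁ = (W⁄K).a₁ := AlgEquiv.commutes _ _
  have htm : v (τ tm - tm) < 1 := by
    have e : τ tm - tm = -(τ tp - tp) := by
      have h1 : τ tp + τ tm = - (W⁄K).a₁ := by rw [← map_add, M.hsum, map_neg, ha1]
      linear_combination h1 - M.hsum
    rw [e, Valuation.map_neg]
    exact htp
  rcases inD_of_odd M hodd hP hP0 with h0 | h0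
  · obtain ⟨hτx, D1⟩ := inD_dec hτ M hr ht htp h0
    have D2 := M.neg_inD h0
    rw [smul_some, sub_eq_add_neg, Point.neg_some]
    rw [Point.neg_some] at D2
    exact M.opp_branch D1 D2 hτx
  · obtain ⟨hτx, D1⟩ := inD_dec hτ M.swap hr ht htm h0
    have D2 := M.swap.neg_inD h0
    rw [smul_some, sub_eq_add_neg, Point.neg_some]
    rw [Point.neg_some] at D2
    exact M.swap.opp_branch D1 D2 hτx

/-- the decomposition group, swapping the branches -/
lemma add_mem_dec (hτ : ∀ x, v (τ x) = v x) {tp tm : K}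
    (M : MultT v (W⁄K) r t tp tm) (hr : v (τ r - r) ≤ v (tA4 (W⁄K) r t))
    (ht : v (τ t - t) ≤ v (tA4 (W⁄K) r t)) (htp : v (τ tp - tm) < 1) {m : ℕ} (hodd : Odd m)
    {P : (W⁄K).Point} (hP : m • P = 0) :
    τ • P + P ∈ M.toIntT.E0 M.hm := by
  by_cases hP0 : P ∈ M.toIntT.E0 M.hm
  · exact add_mem (mem_E0_dec hτ M.toIntT M.hm (hr.trans_lt M.hm) hP0) hP0
  rcases P with _ | ⟨x, y, h⟩
  · exact absurd (zero_mem _) hP0
  have ha1 : τ (W⁄K).a₁ = (W⁄K).a₁ := AlgEquiv.commutes _ _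
  have htm : v (τ tm - tp) < 1 := by
    have e : τ tm - tp = -(τ tp - tm) := by
      have h1 : τ tp + τ tm = - (W⁄K).a₁ := by rw [← map_add, M.hsum, map_neg, ha1]
      linear_combination h1 - M.hsum
    rw [e, Valuation.map_neg]
    exact htp
  rw [add_comm, smul_some]
  rcases inD_of_odd M hodd hP hP0 with h0 | h0
  · obtain ⟨hτx, D1⟩ := inD_dec hτ M hr ht htp h0
    exact M.opp_branch h0 D1 hτx.symm
  · obtain ⟨hτx, D1⟩ := inD_dec hτ M.swap hr ht htm h0
    exact M.swap.opp_branch h0 D1 hτx.symm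

end

section nE0

variable {E : WeierstrassCurve K} [DecidableEq K] [IsAlgClosed K] [CharZero K]

/-- a two-torsion point with nonsingular reduction, in odd residue characteristic -/
lemma exists_second (M : IntT v E r t) (hm : v (tA4 E r t) < 1)
    (hB : v (E.a₁ ^ 2 + 4 * tA2 E r) = 1) (hv : v (2 : K) = 1) :
    ∃ r' t' : K, TModel E r' t' ∧ v r' ≤ 1 ∧ v (tA4 E r' t') = 1 := by
  have h20 : (2 : K) ≠ 0 := two_ne_zero
  have h4 : v (4 : K) = 1 := by
    rw [show (4 : K) = 2 * 2 by norm_num, map_mul, hv, one_mul]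
  set B : K := E.a₁ ^ 2 + 4 * tA2 E r with hBdef
  obtain ⟨δ, hδ⟩ := IsAlgClosed.exists_pow_nat_eq (B ^ 2 - 64 * tA4 E r t) (n := 2) (by norm_num)
  obtain ⟨z, hz, hz1⟩ : ∃ z : K, 4 * z ^ 2 + B * z + 4 * tA4 E r t = 0 ∧ 1 ≤ v z := by
    have hr1 : 4 * ((-B + δ) / 8) ^ 2 + B * ((-B + δ) / 8) + 4 * tA4 E r t = 0 := by
      linear_combination (1 / 16) * hδ
    have hr2 : 4 * ((-B - δ) / 8) ^ 2 + B * ((-B - δ) / 8) + 4 * tA4 E r t = 0 := by
      linear_combination (1 / 16) * hδ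
    by_contra hcon
    push Not at hcon
    have h1 := hcon _ hr1
    have h2 := hcon _ hr2
    have h3 : v (-(B / 4)) < 1 := by
      have e : -(B / 4) = (-B + δ) / 8 + (-B - δ) / 8 := by ring
      rw [e]
      exact v.map_add_lt h1 h2
    rw [Valuation.map_neg, map_div₀, hB, h4, div_one] at h3
    exact lt_irrefl _ h3
  have hz2 : v z = 1 := by
    refine le_antisymm ?_ hz1
    by_contra hlt
    push Not at hlt
    have e : z * z = -((B * z + 4 * tA4 E r t) / 4) := by linear_combination (1 / 4) * hz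
    have h1 : v (z * z) ≤ v z := by
      rw [e, Valuation.map_neg, map_div₀, h4, div_one]
      refine v.map_add_le ?_ ?_
      · rw [map_mul, hB, one_mul]
      · rw [map_mul, h4, one_mul]
        exact hm.le.trans hz1
    rw [map_mul] at h1
    have h2 : v z < v z * v z := lt_mul_of_one_lt_left (zero_lt_one.trans hlt) hlt
    exact absurd h1 (not_le.mpr h2)
  have hE := M.eqn
  rw [equation_iff] at hE
  have h2 := M.two
  refine ⟨r + z, t - E.a₁ * z / 2, ⟨?_, ?_⟩, v.map_add_le M.vr hz2.le, ?_⟩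
  · rw [equation_iff]
    rw [hBdef] at hz
    simp only [tA2, tA4] at hz
    field_simp
    linear_combination 4 * hE - 2 * E.a₁ * z * h2 - z * hz
  · linear_combination h2
  · have e : tA4 E (r + z) (t - E.a₁ * z / 2) = z ^ 2 - tA4 E r t := by
      rw [hBdef] at hz
      simp only [tA2, tA4] at hz ⊢
      linear_combination (1 / 2) * hz
    rw [e, Valuation.map_sub_eq_of_lt_left, map_pow, hz2, one_pow]
    rw [map_pow, hz2, one_pow]
    exact hm

/-- a torsion point outside `E0` -/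
theorem exists_not_E0' (hI : IsInt v E) (hΔ : E.Δ ≠ 0) (M : IntT v E r t)
    (hm : v (tA4 E r t) < 1) (hB : v (E.a₁ ^ 2 + 4 * tA2 E r) = 1) {p : ℕ} (hp : Odd p)
    (hp1 : 1 < p) (hv : v (p : K) = 1 ∨ v (2 : K) = 1) :
    ∃ P : E.toAffine.Point, p • P = 0 ∧ P ∉ M.E0 hm := by
  rcases hv with hv | hv
  · by_contra hcon
    push Not at hcon
    have h2 : ∀ a ∈ dS E p, v (r - a) = 1 := by
      intro a ha
      obtain ⟨P, hP0, hnP, rfl⟩ := (mem_dS_iff hΔ hp).mp ha
      have h3 := hcon P hnP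
      rcases P with _ | ⟨x, y, h⟩
      · exact absurd rfl hP0
      rw [xc_some]
      rw [M.mem_E0_some] at h3
      refine le_antisymm (v.map_sub_le M.vr (hI.torsion_integral hp hv h hnP)) ?_
      rwa [Valuation.map_sub_swap]
    have h1 : v ((E.preΨ' p).eval r) = 1 := by
      rw [eval_preΨ'_eq_prod hΔ hp, map_mul, map_prod, Finset.prod_congr rfl h2, hv,
        Finset.prod_const_one, mul_one]
    obtain ⟨k, hk⟩ := hp
    have h3 := congrArg v (M.toTModel.eval_preΨ'_sq k)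
    rw [map_pow, map_pow, ← hk, h1, one_pow] at h3
    have h4 : v (tA4 E r t) ^ (2 * k ^ 2 + 2 * k) < 1 := by
      refine pow_lt_one₀ zero_le hm ?_
      have : 0 < k := by omega
      positivity
    rw [← h3] at h4
    exact lt_irrefl _ h4
  · obtain ⟨r', t', M', hr', hA'⟩ := exists_second M hm hB hv
    exact exists_not_E0 hΔ hI hp hp1 M' hr' hA' M hm

end nE0

end Fermat.Agent.WPt
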