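import Fermat.Agent.WPt.Det

/-!
# Normalisation
-/

set_option autoImplicit false
set_option linter.unusedSectionVars false

noncomputable section

namespace Fermat.Agent.WPt

open Matrix IsLocalRing Fermat.Agent.Sel

variable {O : Type} [CommRing O] [IsLocalRing O]

/-- a matrix of order two lifting `diag (1, -1)` is conjugate to it by a matrix congruent to `1`;
one more entry can be normalised -/
theorem exists_norm [IsDomain O] (h2 : IsUnit (2 : O)) {C G : M2 O} (hC : C * C = 1)
    (hCr : ∀ i j, residue O (C i j) = (!![1, 0; 0, -1] : M2 (ResidueField O)) i j)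
    (hG : residue O (G 0 1) = 1) :
    ∃ Q Q' : M2 O, Q * Q' = 1 ∧ Q' * Q = 1 ∧
      (∀ i j, residue O (Q i j) = (1 : M2 (ResidueField O)) i j) ∧
      (∀ i j, residue O (Q' i j) = (1 : M2 (ResidueField O)) i j) ∧
      Q' * C * Q = !![1, 0; 0, -1] ∧ (Q' * G * Q) 0 1 = 1 := by
  have r00 : residue O (C 0 0) = 1 := hCr 0 0
  have r01 : residue O (C 0 1) = 0 := hCr 0 1
  have r10 : residue O (C 1 0) = 0 := hCr 1 0
  have r11 : residue O (C 1 1) = -1 := hCr 1 1
  have hent : ∀ i j, C i 0 * C 0 j + C i 1 * C 1 j = (1 : M2 O) i j := fun i j => by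
    have := congrFun (congrFun hC i) j
    simpa only [Matrix.mul_apply, Fin.sum_univ_two] using this
  have e00 : C 0 0 * C 0 0 + C 0 1 * C 1 0 = 1 := hent 0 0
  have e01 : C 0 0 * C 0 1 + C 0 1 * C 1 1 = 0 := hent 0 1
  have e10 : C 1 0 * C 0 0 + C 1 1 * C 1 0 = 0 := hent 1 0
  have e11 : C 1 0 * C 0 1 + C 1 1 * C 1 1 = 1 := hent 1 1
  have hunit : ∀ x : O, residue O x ≠ 0 → IsUnit x := fun x hx => by
    by_contra hx'
    exact hx ((residue_eq_zero_iff x).2 ((mem_maximalIdeal x).2 hx'))
  have h2r : residue O (2 : O) ≠ 0 := fun h0 => by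
    have := (h2.map (residue O)).ne_zero
    exact this h0
  -- `d = - a`
  have hd : C 1 1 = - C 0 0 := by
    have h3 : (C 0 0 - C 1 1) * (C 0 0 + C 1 1) = 0 := by linear_combination e00 - e11
    have h4 : C 0 0 - C 1 1 ≠ 0 := (hunit _ (by
      rw [map_sub, r00, r11]
      rw [map_ofNat] at h2r
      intro h0
      exact h2r (by linear_combination h0))).ne_zero
    linear_combination (mul_eq_zero.1 h3).resolve_left h4
  have hw : IsUnit (1 + C 0 0) := hunit _ (by
      rw [map_add, r00, map_one]
      rw [map_ofNat] at h2r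
      intro h0
      exact h2r (by linear_combination h0))
  obtain ⟨w, hw⟩ := hw.exists_left_inv
  set a := C 0 0 with ha
  set b := C 0 1 with hb
  set c := C 1 0 with hc
  set β : O := -(b * w) with hβ
  set γ : O := c * w with hγ
  have hδ : IsUnit (1 - β * γ) := hunit _ (by
    rw [map_sub, map_mul, hβ, map_neg, map_mul, r01, zero_mul, neg_zero, zero_mul, sub_zero, map_one]
    exact one_ne_zero)
  obtain ⟨δ, hδ⟩ := hδ.exists_left_inv
  have rβ : residue O β = 0 := by rw [hβ, map_neg, map_mul, r01, zero_mul, neg_zero]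
  have rγ : residue O γ = 0 := by rw [hγ, map_mul, r10, zero_mul]
  have rδ : residue O δ = 1 := by
    have := congrArg (residue O) hδ
    rwa [map_mul, map_sub, map_mul, rβ, zero_mul, sub_zero, map_one, mul_one] at this
  have hs : IsUnit (δ * ((G 0 0 - β * G 1 0) * β + (G 0 1 - β * G 1 1))) := hunit _ (by
    simp only [map_mul, map_add, map_sub, rβ, rδ, hG, zero_mul, mul_zero, sub_zero, zero_add, mul_one]
    exact one_ne_zero)
  set s : O := δ * ((G 0 0 - β * G 1 0) * β + (G 0 1 - β * G 1 1)) with hs'
  obtain ⟨u, hu⟩ := hs.exists_left_inv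
  have rs : residue O s = 1 := by
    simp only [hs', map_mul, map_add, map_sub, rβ, rδ, hG, zero_mul, mul_zero, sub_zero, zero_add,
      mul_one]
  have ru : residue O u = 1 := by
    have := congrArg (residue O) hu
    rwa [map_mul, rs, mul_one, map_one] at this
  have hQQ : (!![1, β * u; γ, u] : M2 O) * !![δ, -(δ * β); -(s * δ * γ), s * δ] = 1 := by
    ext i j
    fin_cases i <;> fin_cases j
    · simp [Matrix.mul_apply, Fin.sum_univ_two]
      linear_combination hδ - β * δ * γ * hu
    · simp [Matrix.mul_apply, Fin.sum_univ_two]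
      linear_combination β * δ * hu
    · simp [Matrix.mul_apply, Fin.sum_univ_two]
      linear_combination (-δ * γ) * hu
    · simp [Matrix.mul_apply, Fin.sum_univ_two]
      linear_combination hδ + δ * hu
  have hQQ' : (!![δ, -(δ * β); -(s * δ * γ), s * δ] : M2 O) * !![1, β * u; γ, u] = 1 := by
    ext i j
    fin_cases i <;> fin_cases j
    · simp [Matrix.mul_apply, Fin.sum_univ_two]
      linear_combination hδ
    · simp [Matrix.mul_apply, Fin.sum_univ_two]
      ring
    · simp [Matrix.mul_apply, Fin.sum_univ_two]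
    · simp [Matrix.mul_apply, Fin.sum_univ_two]
      linear_combination hδ * (s * u) + hu
  refine ⟨!![1, β * u; γ, u], !![δ, -(δ * β); -(s * δ * γ), s * δ], hQQ, hQQ', ?_, ?_, ?_, ?_⟩
  · intro i j
    fin_cases i <;> fin_cases j
    · simp
    · simp [rβ]
    · simp [rγ]
    · simp [ru]
  · intro i j
    fin_cases i <;> fin_cases j
    · simp [rδ]
    · simp [rβ]
    · simp [rγ]
    · simp [rs, rδ]
  · have hCQ : C * !![1, β * u; γ, u] = !![1, β * u; γ, u] * !![1, 0; 0, -1] := by
      ext i j
      fin_cases i <;> fin_cases j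
      · simp [Matrix.mul_apply, Fin.sum_univ_two, ← ha, ← hb]
        rw [hγ]
        linear_combination w * e00 + (1 - a) * hw
      · simp [Matrix.mul_apply, Fin.sum_univ_two, ← ha, ← hb]
        rw [hβ]
        linear_combination (-b * u) * hw
      · simp [Matrix.mul_apply, Fin.sum_univ_two, ← hc]
        rw [hγ, hd]
        linear_combination (- c) * hw
      · simp [Matrix.mul_apply, Fin.sum_univ_two, ← hc]
        rw [hβ, hd]
        linear_combination (-u * w) * e00 - u * (1 - a) * hw
    rw [mul_assoc, hCQ, ← mul_assoc, hQQ', one_mul]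
  · simp only [Matrix.mul_apply, Fin.sum_univ_two, Matrix.of_apply, Matrix.cons_val', Matrix.cons_val_zero,
      Matrix.cons_val_one, Matrix.cons_val_fin_one]
    rw [← hu]
    ring

end Fermat.Agent.WPt
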