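import Fermat.Agent.WPt.Loc
import Fermat.Agent.WPt.Norm

/-!
# The relation `(ρ σ - χ(σ) cyc(σ)) (ρ τ - χ(τ)) = 0` on the decomposition group
-/

set_option autoImplicit false
set_option linter.unusedSectionVars false
set_option linter.style.haveILetI false

noncomputable section

namespace Fermat.Agent.WPt

open Matrix Module IsLocalRing Fermat.Agent.GalRep Fermat.Agent.PRem Fermat.Agent.EC
  Fermat.Agent.Sel Fermat.Agent.CL Fermat.Agent.TWG Fermat.Agent.ImW Fermat.Agent.TW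
open WeierstrassCurve WeierstrassCurve.Affine WeierstrassCurve.Affine.Point

local notation "Ω" => AlgebraicClosure ℚ

local notation "𝒢" => (AlgebraicClosure ℚ) ≃ₐ[ℚ] (AlgebraicClosure ℚ)

section fin

variable {p : ℕ} {V : Type*} [AddCommGroup V] {e f : ℕ → V} (T : TSeq p e f)
include T

/-- two vectors in a subgroup which does not contain the `p`-torsion are dependent -/
theorem det_dvd (hp : p.Prime) {H : AddSubgroup V} (hH : ∃ P, p • P = 0 ∧ P ∉ H) {n : ℕ}
    {a b c d : ℤ} (h1 : a • e n + b • f n ∈ H) (h2 : c • e n + d • f n ∈ H) :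
    ((p ^ n : ℕ) : ℤ) ∣ a * d - b * c := by
  rcases n with _ | n
  · rw [pow_zero, Nat.cast_one]
    exact one_dvd _
  set D := a * d - b * c with hD
  have hDe : D • e (n + 1) ∈ H := by
    have h3 := sub_mem (H.zsmul_mem h1 d) (H.zsmul_mem h2 b)
    have e1 : D • e (n + 1) = d • (a • e (n + 1) + b • f (n + 1)) -
        b • (c • e (n + 1) + d • f (n + 1)) := by
      rw [hD]
      module
    rw [e1]
    exact h3
  have hDf : D • f (n + 1) ∈ H := by
    have h3 := sub_mem (H.zsmul_mem h2 a) (H.zsmul_mem h1 c)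
    have e1 : D • f (n + 1) = a • (c • e (n + 1) + d • f (n + 1)) -
        c • (a • e (n + 1) + b • f (n + 1)) := by
      rw [hD]
      module
    rw [e1]
    exact h3
  obtain ⟨k, hk, hk'⟩ := (Nat.dvd_prime_pow hp).1 (Nat.gcd_dvd_right D.natAbs (p ^ (n + 1)))
  have hgcd : ∀ x : V, p ^ (n + 1) • x = 0 → D • x ∈ H → p ^ k • x ∈ H := by
    intro x hx hDx
    have h2 : ((Int.gcd D ((p ^ (n + 1) : ℕ) : ℤ) : ℕ) : ℤ) • x ∈ H := by
      rw [Int.gcd_eq_gcd_ab, add_zsmul, mul_comm, mul_zsmul, mul_comm, mul_zsmul, natCast_zsmul, hx,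
        zsmul_zero, add_zero]
      exact H.zsmul_mem hDx _
    rw [Int.gcd, Int.natAbs_natCast, hk', natCast_zsmul] at h2
    exact h2
  have hke := hgcd _ (T.tors_e (n + 1)) hDe
  have hkf := hgcd _ (T.tors_f (n + 1)) hDf
  rcases Nat.lt_or_ge k (n + 1) with hlt | hge
  · exfalso
    obtain ⟨P, hP, hPH⟩ := hH
    have hn : n = k + (n - k) := by omega
    have e1 : e 1 ∈ H := by
      rw [← T.pow_e 1 n, add_comm 1 n, hn, add_comm k, pow_add, mul_smul]
      have : n - k + k + 1 = n + 1 := by omega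
      rw [this]
      exact H.nsmul_mem hke _
    have f1 : f 1 ∈ H := by
      rw [← T.pow_f 1 n, add_comm 1 n, hn, add_comm k, pow_add, mul_smul]
      have : n - k + k + 1 = n + 1 := by omega
      rw [this]
      exact H.nsmul_mem hkf _
    obtain ⟨a, b, rfl⟩ := T.gen1 P hP
    exact hPH (add_mem (H.zsmul_mem e1 a) (H.zsmul_mem f1 b))
  · have hkn : k = n + 1 := le_antisymm hk hge
    subst hkn
    have h3 : p ^ (n + 1) ∣ D.natAbs := hk' ▸ Nat.gcd_dvd_left _ _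
    exact Int.natCast_dvd.mpr h3

end fin

/-- the linear algebra -/
theorem star_of_det {R : Type} [CommRing R] {X A : M2 R} {x : R} (hx : x * x = 1)
    (h : ∀ i j, (X - x • (1 : M2 R)) 0 i * A 1 j - (X - x • (1 : M2 R)) 1 i * A 0 j = 0) :
    (X - (x * X.det) • (1 : M2 R)) * A = 0 := by
  have h0 := fun j => h 0 j
  have h1 := fun j => h 1 j
  simp only [Matrix.sub_apply, Matrix.smul_apply, smul_eq_mul, Matrix.one_apply_eq, mul_one,
    Matrix.one_apply_ne (show (0 : Fin 2) ≠ 1 by decide),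
    Matrix.one_apply_ne (show (1 : Fin 2) ≠ 0 by decide), mul_zero, sub_zero] at h0 h1
  ext i j
  rw [Matrix.mul_apply, Fin.sum_univ_two, Matrix.zero_apply, Matrix.det_fin_two]
  fin_cases i
  · simp only [Fin.zero_eta, Matrix.sub_apply, Matrix.smul_apply, smul_eq_mul, Matrix.one_apply_eq,
      mul_one, Matrix.one_apply_ne (show (0 : Fin 2) ≠ 1 by decide), mul_zero, sub_zero]
    linear_combination (1 + x * (X 0 0 - x)) * h1 j - x * X 0 1 * h0 j +
      (-X 0 0 * A 0 j - X 1 1 * A 0 j + x * A 0 j) * hx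
  · simp only [Fin.mk_one, Matrix.sub_apply, Matrix.smul_apply, smul_eq_mul, Matrix.one_apply_eq,
      mul_one, Matrix.one_apply_ne (show (1 : Fin 2) ≠ 0 by decide), mul_zero, sub_zero]
    linear_combination (-1 - x * (X 1 1 - x)) * h0 j + x * X 1 0 * h1 j +
      (-X 0 0 * A 1 j - X 1 1 * A 1 j + x * A 1 j) * hx

variable {W : WeierstrassCurve ℤ} {p : ℕ} [hp : Fact p.Prime] {e f : ℕ → PtW W}
  (T : TSeq p e f) {O : Type} [CommRing O] [IsLocalRing O] [IsNoetherianRing O]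
  [IsAdicComplete (maximalIdeal O) O] (hpO : (p : O) ∈ maximalIdeal O)

/-- **The local relation.** -/
theorem rhoO_star {H : AddSubgroup (PtW W)} (hH : ∃ P : PtW W, p • P = 0 ∧ P ∉ H) {σ τ : 𝒢}
    {x y : ℤ} (hx : x * x = 1) (hσ : ∀ n, ∀ P : PtW W, p ^ n • P = 0 → σ • P - x • P ∈ H)
    (hτ : ∀ n, ∀ P : PtW W, p ^ n • P = 0 → τ • P - y • P ∈ H)
    (hdet : (rhoO T hpO 𝒢 σ).det = cycO hpO σ) :
    (rhoO T hpO 𝒢 σ - ((x : O) * cycO hpO σ) • (1 : M2 O)) *
      (rhoO T hpO 𝒢 τ - (y : O) • (1 : M2 O)) = 0 := by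
  rw [← hdet]
  refine star_of_det (by rw [← Int.cast_mul, hx, Int.cast_one]) fun i j => ?_
  refine eq_of_forall_pow (X := O) hpO fun n => ?_
  obtain ⟨Y, hY, E, hE⟩ := rhoO_spec T hpO 𝒢 σ n
  obtain ⟨Z, hZ, F, hF⟩ := rhoO_spec T hpO 𝒢 τ n
  have hcol : ∀ (σ : 𝒢) (x : ℤ) (Y : M2 ℤ), TSeq.IsMat e f n (DistribSMul.toAddMonoidHom (PtW W) σ) Y →
      (∀ P : PtW W, p ^ n • P = 0 → σ • P - x • P ∈ H) →
      ∀ i, (Y 0 i - x * (1 : M2 ℤ) 0 i) • e n + (Y 1 i - x * (1 : M2 ℤ) 1 i) • f n ∈ H := by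
    intro σ x Y hY hσ i
    fin_cases i
    · have h1 := hσ _ (T.tors_e n)
      have h2 : σ • e n = Y 0 0 • e n + Y 1 0 • f n := hY.1
      rw [h2] at h1
      change (Y 0 0 - x * 1) • e n + (Y 1 0 - x * 0) • f n ∈ H
      rw [mul_one, mul_zero, sub_zero, sub_smul]
      have e1 : Y 0 0 • e n - x • e n + Y 1 0 • f n = Y 0 0 • e n + Y 1 0 • f n - x • e n := by abel
      rw [e1]
      exact h1
    · have h1 := hσ _ (T.tors_f n)
      have h2 : σ • f n = Y 0 1 • e n + Y 1 1 • f n := hY.2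
      rw [h2] at h1
      change (Y 0 1 - x * 0) • e n + (Y 1 1 - x * 1) • f n ∈ H
      rw [mul_one, mul_zero, sub_zero, sub_smul]
      have e1 : Y 0 1 • e n + (Y 1 1 • f n - x • f n) = Y 0 1 • e n + Y 1 1 • f n - x • f n := by
        abel
      rw [e1]
      exact h1
  obtain ⟨k, hk⟩ := det_dvd T hp.out hH (hcol σ x Y hY (hσ n) i) (hcol τ y Z hZ (hτ n) j)
  have hk' := congrArg (Int.cast : ℤ → O) hk
  push_cast at hk'
  have hone : ∀ a b : Fin 2, (((1 : M2 ℤ) a b : ℤ) : O) = (1 : M2 O) a b := fun a b => by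
    rw [Matrix.one_apply, Matrix.one_apply]
    split_ifs <;> simp
  rw [hone, hone, hone, hone] at hk'
  have hEe : ∀ a b, rhoO T hpO 𝒢 σ a b = (Y a b : O) + (p : O) ^ n * E a b := fun a b => by
    rw [hE]; rfl
  have hFe : ∀ a b, rhoO T hpO 𝒢 τ a b = (Z a b : O) + (p : O) ^ n * F a b := fun a b => by
    rw [hF]; rfl
  refine ⟨(k : O) + ((Y 0 i : O) - x * (1 : M2 O) 0 i) * F 1 j + E 0 i * ((Z 1 j : O) -
    y * (1 : M2 O) 1 j) + (p : O) ^ n * (E 0 i * F 1 j) - ((Y 1 i : O) - x * (1 : M2 O) 1 i) * F 0 j -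
    E 1 i * ((Z 0 j : O) - y * (1 : M2 O) 0 j) - (p : O) ^ n * (E 1 i * F 0 j), ?_⟩
  simp only [Matrix.sub_apply, Matrix.smul_apply, smul_eq_mul, hEe, hFe]
  linear_combination hk'

end Fermat.Agent.WPt
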