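import Fermat.Agent.TW.HL
import Fermat.Agent.Sel.Kill

/-!
# Matrices on Tate modules
-/

set_option autoImplicit false
set_option linter.unusedSectionVars false
set_option linter.style.haveILetI false

noncomputable section

namespace Fermat.Agent.WPt

open Matrix IsLocalRing Fermat.Agent.Sel

/-- compatible bases of the `p ^ n`-torsion of an abelian group -/
structure TSeq (p : ℕ) {V : Type*} [AddCommGroup V] (e f : ℕ → V) : Prop where
  e0 : e 0 = 0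
  f0 : f 0 = 0
  pe : ∀ n, p • e (n + 1) = e n
  pf : ∀ n, p • f (n + 1) = f n
  gen1 : ∀ P, p • P = 0 → ∃ a b : ℤ, P = a • e 1 + b • f 1
  free1 : ∀ a b : ℤ, a • e 1 + b • f 1 = 0 → (p : ℤ) ∣ a ∧ (p : ℤ) ∣ b

/-- existence of compatible bases -/
theorem exists_tseq {p : ℕ} {V : Type*} [AddCommGroup V]
    (hdiv : ∀ n : ℕ, ∀ P : V, p ^ n • P = 0 → ∃ Q : V, p • Q = P) {e₁ f₁ : V}
    (he : p • e₁ = 0) (hf : p • f₁ = 0)
    (gen1 : ∀ P, p • P = 0 → ∃ a b : ℤ, P = a • e₁ + b • f₁)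
    (free1 : ∀ a b : ℤ, a • e₁ + b • f₁ = 0 → (p : ℤ) ∣ a ∧ (p : ℤ) ∣ b) :
    ∃ e f : ℕ → V, TSeq p e f ∧ e 1 = e₁ ∧ f 1 = f₁ := by
  have key : ∀ g₁ : V, p • g₁ = 0 → ∃ g : ℕ → V, g 0 = 0 ∧ g 1 = g₁ ∧
      ∀ n, p • g (n + 1) = g n := by
    intro g₁ hg₁
    have hstep : ∀ (n : ℕ) (x : {x : V // p ^ (n + 1) • x = 0}),
        ∃ y : {y : V // p ^ (n + 1 + 1) • y = 0}, p • (y : V) = x := by
      rintro n ⟨x, hx⟩
      obtain ⟨y, hy⟩ := hdiv (n + 1) x hx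
      exact ⟨⟨y, by rw [pow_succ, mul_smul, hy, hx]⟩, hy⟩
    choose s hs using hstep
    let g' : ∀ n : ℕ, {x : V // p ^ (n + 1) • x = 0} := fun n =>
      Nat.rec (motive := fun n => {x : V // p ^ (n + 1) • x = 0})
        ⟨g₁, by simpa using hg₁⟩ (fun n x => s n x) n
    have hg' : ∀ n : ℕ, p • (g' (n + 1)).1 = (g' n).1 := fun n => hs n (g' n)
    refine ⟨fun n => match n with
      | 0 => 0
      | n + 1 => (g' n).1, rfl, rfl, fun n => ?_⟩
    rcases n with _ | n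
    · exact hg₁
    · exact hg' n
  obtain ⟨e, e0, e1, he'⟩ := key e₁ he
  obtain ⟨f, f0, f1, hf'⟩ := key f₁ hf
  exact ⟨e, f, ⟨e0, f0, he', hf', by rw [e1, f1]; exact gen1, by rw [e1, f1]; exact free1⟩, e1, f1⟩

variable {p : ℕ} {V : Type*} [AddCommGroup V] {e f : ℕ → V} (T : TSeq p e f)

namespace TSeq

include T

theorem pow_e (n k : ℕ) : p ^ k • e (n + k) = e n := by
  induction k with
  | zero => simp
  | succ k ih => rw [pow_succ, mul_smul, ← add_assoc, T.pe, ih]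

theorem pow_f (n k : ℕ) : p ^ k • f (n + k) = f n := by
  induction k with
  | zero => simp
  | succ k ih => rw [pow_succ, mul_smul, ← add_assoc, T.pf, ih]

theorem tors_e (n : ℕ) : p ^ n • e n = 0 := by
  have := T.pow_e 0 n
  rwa [zero_add, T.e0] at this

theorem tors_f (n : ℕ) : p ^ n • f n = 0 := by
  have := T.pow_f 0 n
  rwa [zero_add, T.f0] at this

theorem gen (n : ℕ) (P : V) (hP : p ^ n • P = 0) : ∃ a b : ℤ, P = a • e n + b • f n := by
  induction n generalizing P with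
  | zero =>
    rw [pow_zero, one_smul] at hP
    exact ⟨0, 0, by rw [hP]; simp⟩
  | succ n ih =>
    obtain ⟨a, b, hab⟩ := ih (p • P) (by rw [← mul_smul, ← pow_succ]; exact hP)
    have h1 : p • (P - (a • e (n + 1) + b • f (n + 1))) = 0 := by
      rw [smul_sub, hab, smul_add, smul_comm p a, smul_comm p b, T.pe, T.pf, sub_self]
    obtain ⟨a', b', hab'⟩ := T.gen1 _ h1
    refine ⟨a + a' * (p ^ n : ℕ), b + b' * (p ^ n : ℕ), ?_⟩
    have e1 : e 1 = p ^ n • e (n + 1) := by rw [add_comm n 1, T.pow_e 1 n]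
    have f1 : f 1 = p ^ n • f (n + 1) := by rw [add_comm n 1, T.pow_f 1 n]
    rw [e1, f1, ← natCast_zsmul (e (n + 1)), ← natCast_zsmul (f (n + 1)), ← mul_smul,
      ← mul_smul] at hab'
    rw [add_smul, add_smul]
    rw [sub_eq_iff_eq_add] at hab'
    rw [hab']
    abel

theorem free (n : ℕ) (a b : ℤ) (h : a • e n + b • f n = 0) :
    ((p ^ n : ℕ) : ℤ) ∣ a ∧ ((p ^ n : ℕ) : ℤ) ∣ b := by
  induction n generalizing a b with
  | zero => rw [pow_zero, Nat.cast_one]; exact ⟨one_dvd _, one_dvd _⟩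
  | succ n ih =>
    have h1 : a • e 1 + b • f 1 = 0 := by
      have e1 : e 1 = p ^ n • e (n + 1) := by rw [add_comm n 1, T.pow_e 1 n]
      have f1 : f 1 = p ^ n • f (n + 1) := by rw [add_comm n 1, T.pow_f 1 n]
      rw [e1, f1, smul_comm a, smul_comm b, ← smul_add, h, smul_zero]
    obtain ⟨⟨a', rfl⟩, ⟨b', rfl⟩⟩ := T.free1 a b h1
    have h2 : a' • e n + b' • f n = 0 := by
      rw [← T.pe, ← T.pf, ← natCast_zsmul, ← natCast_zsmul, ← mul_smul, ← mul_smul, mul_comm a',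
        mul_comm b']
      exact h
    obtain ⟨⟨c, hc⟩, ⟨d, hd⟩⟩ := ih a' b' h2
    refine ⟨⟨c, ?_⟩, ⟨d, ?_⟩⟩
    · rw [hc, pow_succ]; push_cast; ring
    · rw [hd, pow_succ]; push_cast; ring

omit T in
variable (e f) in
/-- the matrix of an additive map on the `p ^ n`-torsion -/
def IsMat (n : ℕ) (φ : V →+ V) (Y : M2 ℤ) : Prop :=
  φ (e n) = Y 0 0 • e n + Y 1 0 • f n ∧ φ (f n) = Y 0 1 • e n + Y 1 1 • f n

theorem exists_isMat (n : ℕ) (φ : V →+ V) : ∃ Y, IsMat e f n φ Y := by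
  obtain ⟨a, c, h1⟩ := T.gen n (φ (e n)) (by rw [← map_nsmul, T.tors_e, map_zero])
  obtain ⟨b, d, h2⟩ := T.gen n (φ (f n)) (by rw [← map_nsmul, T.tors_f, map_zero])
  exact ⟨!![a, b; c, d], h1, h2⟩

omit T in
theorem IsMat.apply {n : ℕ} {φ : V →+ V} {Y : M2 ℤ} (h : IsMat e f n φ Y) (a b : ℤ) :
    φ (a • e n + b • f n) = (Y 0 0 * a + Y 0 1 * b) • e n + (Y 1 0 * a + Y 1 1 * b) • f n := by
  rw [map_add, map_zsmul, map_zsmul, h.1, h.2]
  module

omit T in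
theorem IsMat.add {n : ℕ} {φ ψ : V →+ V} {Y Z : M2 ℤ} (h : IsMat e f n φ Y)
    (h' : IsMat e f n ψ Z) : IsMat e f n (φ + ψ) (Y + Z) := by
  constructor
  · rw [AddMonoidHom.add_apply, h.1, h'.1]
    simp only [Matrix.add_apply]
    module
  · rw [AddMonoidHom.add_apply, h.2, h'.2]
    simp only [Matrix.add_apply]
    module

omit T in
theorem IsMat.comp {n : ℕ} {φ ψ : V →+ V} {Y Z : M2 ℤ} (h : IsMat e f n φ Y)
    (h' : IsMat e f n ψ Z) : IsMat e f n (φ.comp ψ) (Y * Z) := by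
  constructor
  · rw [AddMonoidHom.comp_apply, h'.1, h.apply]
    simp only [Matrix.mul_apply, Fin.sum_univ_two]
  · rw [AddMonoidHom.comp_apply, h'.2, h.apply]
    simp only [Matrix.mul_apply, Fin.sum_univ_two]

omit T in
theorem isMat_zsmul (n : ℕ) (c : ℤ) : IsMat e f n (zsmulAddGroupHom c) (c • (1 : M2 ℤ)) := by
  constructor <;> simp [zsmulAddGroupHom]

theorem IsMat.unique {n : ℕ} {φ : V →+ V} {Y Z : M2 ℤ} (h : IsMat e f n φ Y)
    (h' : IsMat e f n φ Z) : ∃ E : M2 ℤ, Y = Z + ((p ^ n : ℕ) : ℤ) • E := by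
  have h1 : (Y 0 0 - Z 0 0) • e n + (Y 1 0 - Z 1 0) • f n = 0 := by
    have := h.1.symm.trans h'.1
    rw [← sub_eq_zero] at this
    rw [← this]
    module
  have h2 : (Y 0 1 - Z 0 1) • e n + (Y 1 1 - Z 1 1) • f n = 0 := by
    have := h.2.symm.trans h'.2
    rw [← sub_eq_zero] at this
    rw [← this]
    module
  obtain ⟨⟨a, ha⟩, ⟨c, hc⟩⟩ := T.free n _ _ h1
  obtain ⟨⟨b, hb⟩, ⟨d, hd⟩⟩ := T.free n _ _ h2
  refine ⟨!![a, b; c, d], ?_⟩
  ext i j
  fin_cases i <;> fin_cases j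
  · change Y 0 0 = Z 0 0 + ((p ^ n : ℕ) : ℤ) * a
    linear_combination ha
  · change Y 0 1 = Z 0 1 + ((p ^ n : ℕ) : ℤ) * b
    linear_combination hb
  · change Y 1 0 = Z 1 0 + ((p ^ n : ℕ) : ℤ) * c
    linear_combination hc
  · change Y 1 1 = Z 1 1 + ((p ^ n : ℕ) : ℤ) * d
    linear_combination hd

/-- the matrices are compatible -/
theorem IsMat.down {n : ℕ} {φ : V →+ V} {Y : M2 ℤ} (h : IsMat e f (n + 1) φ Y) :
    IsMat e f n φ Y := by
  constructor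
  · rw [← T.pe, ← T.pf, map_nsmul, h.1, smul_add, smul_comm p, smul_comm p (Y 1 0)]
  · rw [← T.pe, ← T.pf, map_nsmul, h.2, smul_add, smul_comm p, smul_comm p (Y 1 1)]

end TSeq

end Fermat.Agent.WPt
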